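import Fermat.Agent.S17.Defs

/-!
# S17 / LOC leaf `UB`: calculus of uniform bounds

All proofs: take the union of the finite sets `S` and the product of the constants.
-/

set_option autoImplicit false

namespace Fermat.Agent.S17

namespace UBound

variable {K : Type*} [Field K] {α β : Type*}
variable {A B C A' B' : AbsoluteValue K ℝ → α → ℝ}

theorem of_le (h : ∀ v x, A v x ≤ B v x) : UBound A B := by
  refine ⟨∅, by simp, fun v => ⟨1, le_rfl, fun _ _ => rfl, fun x => ?_⟩⟩
  rw [one_mul]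
  exact h v x

theorem refl (A : AbsoluteValue K ℝ → α → ℝ) : UBound A A := of_le fun _ _ => le_rfl

theorem trans (h₁ : UBound A B) (h₂ : UBound B C) : UBound A C := by
  classical
  obtain ⟨S₁, hS₁, H₁⟩ := h₁
  obtain ⟨S₂, hS₂, H₂⟩ := h₂
  refine ⟨S₁ ∪ S₂, fun a ha => ?_, fun v => ?_⟩
  · rcases Finset.mem_union.1 ha with h | h
    exacts [hS₁ a h, hS₂ a h]
  · obtain ⟨c₁, h1, hn1, hb1⟩ := H₁ v
    obtain ⟨c₂, h2, hn2, hb2⟩ := H₂ v
    refine ⟨c₁ * c₂, one_le_mul_of_one_le_of_one_le h1 h2, fun hv hS => ?_, fun x => ?_⟩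
    · rw [hn1 hv fun a ha => hS a (Finset.mem_union_left _ ha),
        hn2 hv fun a ha => hS a (Finset.mem_union_right _ ha), one_mul]
    · calc A v x ≤ c₁ * B v x := hb1 x
        _ ≤ c₁ * (c₂ * C v x) := mul_le_mul_of_nonneg_left (hb2 x) (by linarith)
        _ = c₁ * c₂ * C v x := by ring

theorem comp (h : UBound A B) (f : β → α) :
    UBound (fun v x => A v (f x)) (fun v x => B v (f x)) := by
  obtain ⟨S, hS, H⟩ := h
  refine ⟨S, hS, fun v => ?_⟩
  obtain ⟨c, h1, hn, hb⟩ := H v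
  exact ⟨c, h1, hn, fun x => hb (f x)⟩

theorem mul (h : UBound A B) (h' : UBound A' B') (hA : ∀ v x, 0 ≤ A v x) (hA' : ∀ v x, 0 ≤ A' v x) :
    UBound (fun v x => A v x * A' v x) (fun v x => B v x * B' v x) := by
  classical
  obtain ⟨S₁, hS₁, H₁⟩ := h
  obtain ⟨S₂, hS₂, H₂⟩ := h'
  refine ⟨S₁ ∪ S₂, fun a ha => ?_, fun v => ?_⟩
  · rcases Finset.mem_union.1 ha with h | h
    exacts [hS₁ a h, hS₂ a h]
  · obtain ⟨c₁, h1, hn1, hb1⟩ := H₁ v
    obtain ⟨c₂, h2, hn2, hb2⟩ := H₂ v
    refine ⟨c₁ * c₂, one_le_mul_of_one_le_of_one_le h1 h2, fun hv hS => ?_, fun x => ?_⟩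
    · rw [hn1 hv fun a ha => hS a (Finset.mem_union_left _ ha),
        hn2 hv fun a ha => hS a (Finset.mem_union_right _ ha), one_mul]
    · calc A v x * A' v x ≤ (c₁ * B v x) * (c₂ * B' v x) :=
            mul_le_mul (hb1 x) (hb2 x) (hA' v x) (le_trans (hA v x) (hb1 x))
        _ = c₁ * c₂ * (B v x * B' v x) := by ring

theorem pow (h : UBound A B) (hA : ∀ v x, 0 ≤ A v x) (n : ℕ) :
    UBound (fun v x => A v x ^ n) (fun v x => B v x ^ n) := by
  obtain ⟨S, hS, H⟩ := h
  refine ⟨S, hS, fun v => ?_⟩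
  obtain ⟨c, h1, hn, hb⟩ := H v
  refine ⟨c ^ n, one_le_pow₀ h1, fun hv hS' => by rw [hn hv hS', one_pow], fun x => ?_⟩
  rw [← mul_pow]
  exact pow_le_pow_left₀ (hA v x) (hb x) n

theorem prod {ι : Type*} (s : Finset ι) {A B : ι → AbsoluteValue K ℝ → α → ℝ}
    (h : ∀ i ∈ s, UBound (A i) (B i)) (hA : ∀ i ∈ s, ∀ v x, 0 ≤ A i v x) :
    UBound (fun v x => ∏ i ∈ s, A i v x) (fun v x => ∏ i ∈ s, B i v x) := by
  classical
  induction s using Finset.induction_on with
  | empty => exact of_le fun v x => by simp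
  | insert a s ha ih =>
    simp only [Finset.prod_insert ha]
    exact (h a (Finset.mem_insert_self a s)).mul
      (ih (fun i hi => h i (Finset.mem_insert_of_mem hi))
        (fun i hi => hA i (Finset.mem_insert_of_mem hi)))
      (hA a (Finset.mem_insert_self a s))
      (fun v x => Finset.prod_nonneg fun i hi => hA i (Finset.mem_insert_of_mem hi) v x)

theorem sup_two (h : UBound A B) (h' : UBound A' B) (hB : ∀ v x, 0 ≤ B v x) :
    UBound (fun v x => A v x ⊔ A' v x) B := by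
  classical
  obtain ⟨S₁, hS₁, H₁⟩ := h
  obtain ⟨S₂, hS₂, H₂⟩ := h'
  refine ⟨S₁ ∪ S₂, fun a ha => ?_, fun v => ?_⟩
  · rcases Finset.mem_union.1 ha with h | h
    exacts [hS₁ a h, hS₂ a h]
  · obtain ⟨c₁, h1, hn1, hb1⟩ := H₁ v
    obtain ⟨c₂, h2, hn2, hb2⟩ := H₂ v
    refine ⟨c₁ * c₂, one_le_mul_of_one_le_of_one_le h1 h2, fun hv hS => ?_, fun x => ?_⟩
    · rw [hn1 hv fun a ha => hS a (Finset.mem_union_left _ ha),
        hn2 hv fun a ha => hS a (Finset.mem_union_right _ ha), one_mul]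
    · apply sup_le
      · refine (hb1 x).trans (mul_le_mul_of_nonneg_right ?_ (hB v x))
        exact le_mul_of_one_le_right (by linarith) h2
      · refine (hb2 x).trans (mul_le_mul_of_nonneg_right ?_ (hB v x))
        exact le_mul_of_one_le_left (by linarith) h1

/-- (`B ≥ 0` is needed: the constants have to be enlarged.) -/
theorem sup' {ι : Type*} (s : Finset ι) (hs : s.Nonempty) {A : ι → AbsoluteValue K ℝ → α → ℝ}
    (h : ∀ i ∈ s, UBound (A i) B) (hB : ∀ v x, 0 ≤ B v x) :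
    UBound (fun v x => s.sup' hs fun i => A i v x) B := by
  induction hs using Finset.Nonempty.cons_induction with
  | singleton a => simpa using h a (Finset.mem_singleton_self a)
  | cons a s ha hs ih =>
    simp only [Finset.sup'_cons hs]
    exact sup_two (h a (Finset.mem_cons_self a s))
      (ih fun i hi => h i (Finset.mem_cons_of_mem hi)) hB

/-- cancel a common positive factor. -/
theorem of_mul_right {D : AbsoluteValue K ℝ → α → ℝ} (hD : ∀ v x, 0 < D v x)
    (h : UBound (fun v x => A v x * D v x) (fun v x => B v x * D v x)) : UBound A B := by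
  obtain ⟨S, hS, H⟩ := h
  refine ⟨S, hS, fun v => ?_⟩
  obtain ⟨c, h1, hn, hb⟩ := H v
  refine ⟨c, h1, hn, fun x => ?_⟩
  have h2 := hb x
  rw [← mul_assoc] at h2
  exact le_of_mul_le_mul_right h2 (hD v x)

/-- extract `n`-th roots. -/
theorem of_pow {n : ℕ} (hn : n ≠ 0) (hB : ∀ v x, 0 ≤ B v x)
    (h : UBound (fun v x => A v x ^ n) (fun v x => B v x ^ n)) : UBound A B := by
  obtain ⟨S, hS, H⟩ := h
  refine ⟨S, hS, fun v => ?_⟩
  obtain ⟨c, h1, hn', hb⟩ := H v
  refine ⟨c, h1, hn', fun x => ?_⟩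
  have h2 : A v x ^ n ≤ (c * B v x) ^ n := by
    rw [mul_pow]
    exact (hb x).trans
      (mul_le_mul_of_nonneg_right (le_self_pow₀ h1 hn) (pow_nonneg (hB v x) n))
  exact le_of_pow_le_pow_left₀ hn (mul_nonneg (by linarith) (hB v x)) h2

/-- a linear combination with fixed coefficients is bounded by the max of the variables. -/
theorem linear {ι : Type*} (s : Finset ι) (hs : s.Nonempty) (c : ι → K) (X : ι → α → K) :
    UBound (fun (v : AbsoluteValue K ℝ) x => v (∑ i ∈ s, c i * X i x))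
      (fun v x => s.sup' hs fun i => v (X i x)) := by
  classical
  refine ⟨(s.image c).filter (· ≠ 0), fun a ha => (Finset.mem_filter.1 ha).2, fun v => ?_⟩
  by_cases hv : IsNonarchimedean v ∧ ∀ a ∈ (s.image c).filter (· ≠ 0), v a = 1
  · refine ⟨1, le_rfl, fun _ _ => rfl, fun x => ?_⟩
    rw [one_mul]
    obtain ⟨hna, hS⟩ := hv
    obtain ⟨i, hi, hle⟩ :=
      IsNonarchimedean.finset_image_add_of_nonempty hna (fun i => c i * X i x) hs
    refine hle.trans ?_
    have h1 : v (c i * X i x) ≤ v (X i x) := by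
      rw [map_mul]
      by_cases hc : c i = 0
      · rw [hc, map_zero, zero_mul]
        exact v.nonneg _
      · rw [hS (c i) (Finset.mem_filter.2 ⟨Finset.mem_image_of_mem c hi, hc⟩), one_mul]
    exact h1.trans (Finset.le_sup' (fun i => v (X i x)) hi)
  · refine ⟨max 1 (∑ i ∈ s, v (c i)), le_max_left _ _, fun h1 h2 => absurd ⟨h1, h2⟩ hv,
      fun x => ?_⟩
    have hnn : 0 ≤ s.sup' hs fun i => v (X i x) := by
      obtain ⟨i, hi⟩ := hs
      exact (v.nonneg _).trans (Finset.le_sup' (fun i => v (X i x)) hi)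
    calc v (∑ i ∈ s, c i * X i x) ≤ ∑ i ∈ s, v (c i * X i x) := v.sum_le _ _
      _ ≤ ∑ i ∈ s, v (c i) * (s.sup' hs fun i => v (X i x)) :=
          Finset.sum_le_sum fun i hi => by
            rw [map_mul]
            exact mul_le_mul_of_nonneg_left (Finset.le_sup' (fun i => v (X i x)) hi)
              (v.nonneg _)
      _ = (∑ i ∈ s, v (c i)) * (s.sup' hs fun i => v (X i x)) := (Finset.sum_mul _ _ _).symm
      _ ≤ max 1 (∑ i ∈ s, v (c i)) * (s.sup' hs fun i => v (X i x)) :=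
          mul_le_mul_of_nonneg_right (le_max_right _ _) hnn

/-- a constant nonzero scalar. -/
theorem const_mul (c : K) (X : α → K) :
    UBound (fun (v : AbsoluteValue K ℝ) x => v (c * X x)) (fun v x => v (X x)) := by
  classical
  refine ⟨({c} : Finset K).filter (· ≠ 0), fun a ha => (Finset.mem_filter.1 ha).2, fun v => ?_⟩
  refine ⟨max 1 (v c), le_max_left _ _, fun _ hS => ?_, fun x => ?_⟩
  · by_cases hc : c = 0
    · rw [hc, map_zero]
      exact max_eq_left zero_le_one
    · rw [hS c (Finset.mem_filter.2 ⟨Finset.mem_singleton_self c, hc⟩), max_self]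
  · show v (c * X x) ≤ max 1 (v c) * v (X x)
    rw [map_mul]
    exact mul_le_mul_of_nonneg_right (le_max_right _ _) (v.nonneg _)

end UBound

end Fermat.Agent.S17
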