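import Fermat.Agent.S17.Loc.FrameGen
import Fermat.Agent.S17.Loc.UB

/-!
# S17 / LOC leaf `Size`: the size functions `nrm v n P = max_{wt i ≤ n} |e_i(P)|_v`

* `nrm_mul_le` : `e i * e j = ∑_l c_{ijl} e l` (`l ∈ idx (a+b)`), apply `P`.
* `nrm_add_le` : by `le_mul_le`, every `e l` (`wt l ≤ a + b`) is a FIXED linear combination of
  products `e i * e j`, `wt i ≤ a`, `wt j ≤ b`.
* `nrm_pow_le`, `nrm_pow_ge`: iterate (`nrm v n P ^ n1 ≲ nrm v (n * n1) P ≲ nrm v n1 P ^ n`, and
  conversely for `n ≥ 4 g`).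
* `eval_le` : `f = ∑ a_i e_i`.
* `wdg_two_pos` : two distinct points differ on some `e i`, `wt i ≤ n1` (`adjoin_eq_top`); the minor
  with columns `0, i` is `Q (e i) - P (e i)`.
-/

set_option autoImplicit false

namespace Fermat.Agent.S17

namespace Frame

variable {K R : Type*} [Field K] [CommRing R] [Algebra K R] (F : Frame K R)

theorem Size_nrm_nonneg (v : AbsoluteValue K ℝ) (a : ℕ) (P : R →ₐ[K] K) : 0 ≤ F.nrm v a P :=
  zero_le_one.trans (F.one_le_nrm v a P)

theorem Size_le_nrm (v : AbsoluteValue K ℝ) {a i : ℕ} (hi : i ∈ F.idx a) (P : R →ₐ[K] K) :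
    v (P (F.e i)) ≤ F.nrm v a P :=
  Finset.le_sup' (fun i => v (P (F.e i))) hi

theorem Size_nrm_mul_eq (v : AbsoluteValue K ℝ) (a b : ℕ) (P : R →ₐ[K] K) :
    F.nrm v a P * F.nrm v b P =
      (F.idx a ×ˢ F.idx b).sup' ((F.idx_nonempty a).product (F.idx_nonempty b))
        fun p => v (P (F.e p.1 * F.e p.2)) := by
  apply le_antisymm
  · obtain ⟨i, hi, hi'⟩ := Finset.exists_mem_eq_sup' (F.idx_nonempty a) fun i => v (P (F.e i))
    obtain ⟨j, hj, hj'⟩ := Finset.exists_mem_eq_sup' (F.idx_nonempty b) fun i => v (P (F.e i))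
    unfold nrm
    rw [hi', hj', ← map_mul, ← map_mul]
    exact Finset.le_sup' (fun p : ℕ × ℕ => v (P (F.e p.1 * F.e p.2))) (Finset.mk_mem_product hi hj)
  · refine Finset.sup'_le _ _ fun p hp => ?_
    obtain ⟨h1, h2⟩ := Finset.mem_product.mp hp
    rw [map_mul, map_mul]
    exact mul_le_mul (F.Size_le_nrm v h1 P) (F.Size_le_nrm v h2 P) (v.nonneg _)
      (F.Size_nrm_nonneg v a P)

theorem nrm_mul_le (a b : ℕ) :
    UBound (α := R →ₐ[K] K) (fun v P => F.nrm v a P * F.nrm v b P)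
      (fun v P => F.nrm v (a + b) P) := by
  have h : UBound (α := R →ₐ[K] K)
      (fun v P => (F.idx a ×ˢ F.idx b).sup' ((F.idx_nonempty a).product (F.idx_nonempty b))
        fun p => v (P (F.e p.1 * F.e p.2)))
      (fun v P => F.nrm v (a + b) P) := by
    refine UBound.sup' _ _ (fun p hp => ?_) (fun v P => F.Size_nrm_nonneg v _ P)
    obtain ⟨h1, h2⟩ := Finset.mem_product.mp hp
    have hmem : F.e p.1 * F.e p.2 ∈ F.le (a + b) :=
      F.mul_mem_le (F.e_mem_le (F.mem_idx.mp h1)) (F.e_mem_le (F.mem_idx.mp h2))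
    have hsum := F.eq_sum_idx hmem
    have h3 := UBound.linear (α := R →ₐ[K] K) (F.idx (a + b)) (F.idx_nonempty _)
      (fun l => F.e.repr (F.e p.1 * F.e p.2) l) (fun l P => P (F.e l))
    refine (UBound.of_le fun v P => le_of_eq ?_).trans h3
    conv_lhs => rw [hsum]
    rw [map_sum]
    congr 1
    refine Finset.sum_congr rfl fun l _ => ?_
    rw [map_smul, smul_eq_mul]
  exact (UBound.of_le fun v P => (F.Size_nrm_mul_eq v a b P).le).trans h

theorem Size_exists_coeff {a b : ℕ} {f : R} (hf : f ∈ F.le a * F.le b) :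
    ∃ c : ℕ × ℕ → K, f = ∑ p ∈ F.idx a ×ˢ F.idx b, c p • (F.e p.1 * F.e p.2) := by
  induction hf using Submodule.mul_induction_on' with
  | mem_mul_mem m hm n hn =>
    refine ⟨fun p => F.e.repr m p.1 * F.e.repr n p.2, ?_⟩
    conv_lhs => rw [F.eq_sum_idx hm, F.eq_sum_idx hn]
    rw [Finset.sum_mul_sum, Finset.sum_product]
    refine Finset.sum_congr rfl fun i _ => Finset.sum_congr rfl fun j _ => ?_
    rw [smul_mul_smul_comm]
  | add x _ y _ hx hy =>
    obtain ⟨c, hc⟩ := hx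
    obtain ⟨c', hc'⟩ := hy
    refine ⟨fun p => c p + c' p, ?_⟩
    conv_lhs => rw [hc, hc']
    rw [← Finset.sum_add_distrib]
    refine Finset.sum_congr rfl fun p _ => ?_
    rw [add_smul]

theorem nrm_add_le {a b : ℕ} (ha : 4 * F.g ≤ a) (hb : 2 * F.g ≤ b) :
    UBound (α := R →ₐ[K] K) (fun v P => F.nrm v (a + b) P)
      (fun v P => F.nrm v a P * F.nrm v b P) := by
  refine UBound.sup' _ _ (fun l hl => ?_)
    (fun v P => mul_nonneg (F.Size_nrm_nonneg v _ P) (F.Size_nrm_nonneg v _ P))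
  have hmem : F.e l ∈ F.le a * F.le b := by
    rw [F.le_mul_le ha hb]
    exact F.e_mem_le (F.mem_idx.mp hl)
  obtain ⟨c, hc⟩ := F.Size_exists_coeff hmem
  have h1 := UBound.linear (α := R →ₐ[K] K) (F.idx a ×ˢ F.idx b)
    ((F.idx_nonempty a).product (F.idx_nonempty b)) c (fun p P => P (F.e p.1 * F.e p.2))
  refine ((UBound.of_le fun v P => le_of_eq ?_).trans h1).trans
    (UBound.of_le fun v P => (F.Size_nrm_mul_eq v a b P).ge)
  conv_lhs => rw [hc]
  rw [map_sum]
  congr 1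
  refine Finset.sum_congr rfl fun p _ => ?_
  rw [map_smul, smul_eq_mul]

theorem Size_pow_le (m k : ℕ) :
    UBound (α := R →ₐ[K] K) (fun v P => F.nrm v m P ^ k) (fun v P => F.nrm v (k * m) P) := by
  induction k with
  | zero => exact UBound.of_le fun v P => by rw [pow_zero]; exact F.one_le_nrm v _ P
  | succ k ih =>
    have h1 := ih.mul (UBound.refl (fun (v : AbsoluteValue K ℝ) (P : R →ₐ[K] K) => F.nrm v m P))
      (fun v P => pow_nonneg (F.Size_nrm_nonneg v m P) k) (fun v P => F.Size_nrm_nonneg v m P)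
    have h2 := h1.trans (F.nrm_mul_le (k * m) m)
    simpa only [pow_succ, Nat.succ_mul] using h2

theorem Size_nrm_zero (v : AbsoluteValue K ℝ) (P : R →ₐ[K] K) : F.nrm v 0 P ≤ 1 := by
  refine Finset.sup'_le _ _ fun i hi => ?_
  have h1 : F.wt i = F.wt 0 := by
    have := F.mem_idx.mp hi
    rw [F.wt_zero]
    omega
  rw [F.wt_injective h1, F.e_zero, map_one, map_one]

theorem Size_le_pow {m : ℕ} (hm : 4 * F.g ≤ m) (k : ℕ) :
    UBound (α := R →ₐ[K] K) (fun v P => F.nrm v (k * m) P) (fun v P => F.nrm v m P ^ k) := by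
  induction k with
  | zero =>
    exact UBound.of_le fun v P => by
      rw [pow_zero, Nat.zero_mul]
      exact F.Size_nrm_zero v P
  | succ k ih =>
    rcases Nat.eq_zero_or_pos k with rfl | hk
    · exact UBound.of_le fun v P => by
        rw [Nat.zero_add, Nat.one_mul, pow_one]
    · have h1 := F.nrm_add_le (a := k * m) (b := m) (by nlinarith) (by omega)
      have h2 := ih.mul (UBound.refl (fun (v : AbsoluteValue K ℝ) (P : R →ₐ[K] K) => F.nrm v m P))
        (fun v P => F.Size_nrm_nonneg v _ P) (fun v P => F.Size_nrm_nonneg v m P)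
      have h3 := h1.trans h2
      simpa only [pow_succ, Nat.succ_mul] using h3

theorem nrm_pow_le (n : ℕ) :
    UBound (α := R →ₐ[K] K) (fun v P => F.nrm v n P ^ F.n1) (fun v P => F.nrm v F.n1 P ^ n) := by
  have h1 := F.Size_pow_le n F.n1
  have h2 := F.Size_le_pow (m := F.n1) (by unfold n1; omega) n
  rw [Nat.mul_comm] at h2
  exact h1.trans h2

theorem nrm_pow_ge {n : ℕ} (hn : 4 * F.g ≤ n) :
    UBound (α := R →ₐ[K] K) (fun v P => F.nrm v F.n1 P ^ n) (fun v P => F.nrm v n P ^ F.n1) := by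
  have h1 := F.Size_pow_le F.n1 n
  have h2 := F.Size_le_pow hn F.n1
  rw [Nat.mul_comm] at h2
  exact h1.trans h2

theorem eval_le (n : ℕ) :
    UBound (α := {f : R // f ∈ F.le n} × (R →ₐ[K] K)) (fun v x => v (x.2 x.1.1))
      (fun v x => F.cnrm v x.1.1 * F.nrm v n x.2) := by
  have h1 := UBound.linear (α := {f : R // f ∈ F.le n} × (R →ₐ[K] K)) (F.idx n) (F.idx_nonempty n)
    (fun _ => (1 : K)) (fun i x => F.e.repr x.1.1 i * x.2 (F.e i))
  refine ((UBound.of_le fun v x => le_of_eq ?_).trans h1).trans (UBound.of_le fun v x => ?_)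
  · conv_lhs => rw [F.eq_sum_idx x.1.2]
    rw [map_sum]
    congr 1
    refine Finset.sum_congr rfl fun i _ => ?_
    rw [map_smul, smul_eq_mul, one_mul]
  · refine Finset.sup'_le _ _ fun i hi => ?_
    rw [map_mul, F.cnrm_eq v x.1.2]
    exact mul_le_mul (Finset.le_sup' (fun i => v (F.e.repr x.1.1 i)) hi) (F.Size_le_nrm v hi x.2)
      (v.nonneg _) ((v.nonneg _).trans (Finset.le_sup' (fun i => v (F.e.repr x.1.1 i)) hi))

theorem wdg_two_pos (v : AbsoluteValue K ℝ) {P Q : R →ₐ[K] K} (h : P ≠ Q) :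
    0 < F.wdg v F.n1 (fun a => ⇑(two P Q a)) := by
  have hex : ∃ i, F.wt i ≤ F.n1 ∧ P (F.e i) ≠ Q (F.e i) := by
    by_contra hcon
    push_neg at hcon
    apply h
    refine AlgHom.ext_of_adjoin_eq_top F.adjoin_eq_top ?_
    rintro _ ⟨i, hi, rfl⟩
    exact hcon i hi
  obtain ⟨i, hi, hne⟩ := hex
  have hJ : (![0, i] : Fin 2 → ℕ) ∈ F.idxFam F.n1 2 := by
    rw [F.mem_idxFam]
    intro b
    fin_cases b
    · show F.wt 0 ≤ _
      rw [F.wt_zero]
      exact Nat.zero_le _
    · exact hi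
  have hdet : (F.mat (fun a => ⇑(two P Q a)) ![0, i]).det = Q (F.e i) - P (F.e i) := by
    rw [Matrix.det_fin_two]
    show P (F.e 0) * Q (F.e i) - P (F.e i) * Q (F.e 0) = _
    rw [F.e_zero, map_one, map_one, one_mul, mul_one]
  have hne' : (F.mat (fun a => ⇑(two P Q a)) ![0, i]).det ≠ 0 := by
    rw [hdet]
    exact sub_ne_zero.mpr (Ne.symm hne)
  exact lt_of_lt_of_le (v.pos hne')
    (Finset.le_sup' (fun J => v (F.mat (fun a => ⇑(two P Q a)) J).det) hJ)

/-- `wdg` does not depend on the enumeration. -/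
theorem wdg_perm (v : AbsoluteValue K ℝ) (n : ℕ) {d : ℕ} (P : Fin d → R → K)
    (σ : Equiv.Perm (Fin d)) : F.wdg v n (fun a => P (σ a)) = F.wdg v n P := by
  unfold wdg
  refine Finset.sup'_congr _ rfl fun J _ => ?_
  have h : F.mat (fun a => P (σ a)) J = (F.mat P J).submatrix σ id := rfl
  rw [h, Matrix.det_permute, map_mul]
  rcases Int.units_eq_one_or (Equiv.Perm.sign σ) with h | h <;> simp [h]

theorem wdg_two_comm (v : AbsoluteValue K ℝ) (n : ℕ) (P Q : R →ₐ[K] K) :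
    F.wdg v n (fun a => ⇑(two P Q a)) = F.wdg v n (fun a => ⇑(two Q P a)) := by
  rw [← F.wdg_perm v n (fun a => ⇑(two P Q a)) (Equiv.swap 0 1)]
  congr 1
  funext a
  fin_cases a <;> rfl

end Frame

end Fermat.Agent.S17
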