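import Mathlib

/-!
# S17 / LOC : Jacobi's complementary minors (pure matrix theory)

`A : n × M`, `B : M × r`, `A B = 0`, both of full rank: the maximal minors of `A` are proportional (up to
sign) to the complementary maximal minors of `B`.
-/

set_option autoImplicit false

namespace Fermat.Agent.S17

open Matrix

/-- The basic identity: `det A_I * det B_{I₀'} = det [A; C]_e * det B_{I'}`, where `C` selects the rows
`I₀'` and `e = (I, I')`. -/
theorem jacobi_key {K : Type*} [Field K] {M : Type*} [Fintype M] [DecidableEq M] {n r : ℕ}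
    (A : Matrix (Fin n) M K) (B : Matrix M (Fin r) K) (hAB : A * B = 0) (I₀' : Fin r → M)
    (I : Fin n → M) (I' : Fin r → M) (h : Function.Bijective (Sum.elim I I')) :
    (A.submatrix id I).det * (B.submatrix I₀' id).det =
      ((Matrix.fromRows A ((1 : Matrix M M K).submatrix I₀' id)).submatrix id
        (Equiv.ofBijective _ h)).det * (B.submatrix I' id).det := by
  set e : Fin n ⊕ Fin r ≃ M := Equiv.ofBijective _ h with he
  set C : Matrix (Fin r) M K := (1 : Matrix M M K).submatrix I₀' id with hC
  set Y : Matrix (Fin n ⊕ Fin r) M K := Matrix.fromRows A C with hY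
  set E : Matrix M (Fin n) K := (1 : Matrix M M K).submatrix id I with hE
  set X : Matrix M (Fin n ⊕ Fin r) K := Matrix.fromCols E B with hX
  have hIinj : Function.Injective I := fun i i' hii =>
    Sum.inl_injective (h.1 (show Sum.elim I I' (Sum.inl i) = Sum.elim I I' (Sum.inl i') from hii))
  have hdis : ∀ l i, I' l ≠ I i := fun l i hli => by
    have := h.1 (show Sum.elim I I' (Sum.inr l) = Sum.elim I I' (Sum.inl i) from hli)
    exact Sum.inr_ne_inl this
  have h1 : A * E = A.submatrix id I := by
    ext i j
    simp [hE, Matrix.mul_apply, Matrix.one_apply]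
  have h2 : C * B = B.submatrix I₀' id := by
    ext i j
    simp [hC, Matrix.mul_apply, Matrix.one_apply]
  have h3 : Y * X = Matrix.fromBlocks (A.submatrix id I) 0 (C * E) (B.submatrix I₀' id) := by
    rw [hY, hX, Matrix.fromRows_mul_fromCols, h1, h2, hAB]
  have h4 : (Y * X).det = (A.submatrix id I).det * (B.submatrix I₀' id).det := by
    rw [h3, Matrix.det_fromBlocks_zero₁₂]
  have h5 : Y * X = Y.submatrix id e * X.submatrix e id := by
    rw [Matrix.submatrix_mul_equiv, Matrix.submatrix_id_id]
  have h6 : X.submatrix e id =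
      Matrix.fromBlocks 1 (B.submatrix I id) 0 (B.submatrix I' id) := by
    ext a b
    rcases a with i | l <;> rcases b with i' | l'
    · simp [hX, hE, he, Matrix.one_apply, hIinj.eq_iff]
    · simp [hX, he]
    · simp [hX, hE, he, hdis]
    · simp [hX, he]
  rw [← h4, h5, Matrix.det_mul, h6, Matrix.det_fromBlocks_zero₂₁, Matrix.det_one, one_mul]

/-- Changing the bijection changes the determinant by a sign. -/
theorem jacobi_sign {K : Type*} [Field K] {M ι : Type*} [Fintype M] [DecidableEq M] [Fintype ι]
    [DecidableEq ι] (Y : Matrix ι M K) (e e₀ : ι ≃ M) :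
    (Y.submatrix id e).det = (Y.submatrix id e₀).det ∨
      (Y.submatrix id e).det = -(Y.submatrix id e₀).det := by
  have h1 : Y.submatrix id e = (Y.submatrix id e₀).submatrix id (e.trans e₀.symm) := by
    ext a b
    simp
  rw [h1, Matrix.det_permute']
  rcases Int.units_eq_one_or (Equiv.Perm.sign (e.trans e₀.symm)) with h | h
  · left
    rw [h]
    simp
  · right
    rw [h]
    simp

/-- Complementary minors (up to sign). -/
theorem jacobi_compl_minors {K : Type*} [Field K] {M : Type*} [Fintype M] [DecidableEq M]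
    {n r : ℕ} (A : Matrix (Fin n) M K) (B : Matrix M (Fin r) K) (hAB : A * B = 0)
    (hA : ∃ I : Fin n → M, (A.submatrix id I).det ≠ 0)
    (hB : ∃ I' : Fin r → M, (B.submatrix I' id).det ≠ 0) :
    ∃ c : K, c ≠ 0 ∧ ∀ (I : Fin n → M) (I' : Fin r → M), Function.Bijective (Sum.elim I I') →
      ((A.submatrix id I).det = c * (B.submatrix I' id).det ∨
        (A.submatrix id I).det = - (c * (B.submatrix I' id).det)) := by
  classical
  by_cases hne : Nonempty (Fin n ⊕ Fin r ≃ M)
  swap
  · exact ⟨1, one_ne_zero, fun I I' h => absurd ⟨Equiv.ofBijective _ h⟩ hne⟩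
  obtain ⟨e₀⟩ := hne
  obtain ⟨I₀', hI₀'⟩ := hB
  obtain ⟨I₁, hI₁⟩ := hA
  set Y : Matrix (Fin n ⊕ Fin r) M K :=
    Matrix.fromRows A ((1 : Matrix M M K).submatrix I₀' id) with hY
  set y : K := (Y.submatrix id e₀).det with hy
  set b₀ : K := (B.submatrix I₀' id).det with hb₀
  have key : ∀ (I : Fin n → M) (I' : Fin r → M), Function.Bijective (Sum.elim I I') →
      ((A.submatrix id I).det * b₀ = y * (B.submatrix I' id).det ∨
        (A.submatrix id I).det * b₀ = -(y * (B.submatrix I' id).det)) := by
    intro I I' h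
    have h1 := jacobi_key A B hAB I₀' I I' h
    rcases jacobi_sign Y (Equiv.ofBijective _ h) e₀ with h2 | h2
    · left
      rw [h1, h2]
    · right
      rw [h1, h2, neg_mul]
  have hcard : Fintype.card M = n + r := by
    rw [← Fintype.card_congr e₀]
    simp
  have hI₁inj : Function.Injective I₁ := by
    intro i j hij
    by_contra hne
    exact hI₁ (Matrix.det_zero_of_column_eq hne fun k => by simp [hij])
  obtain ⟨I₁', hbij⟩ : ∃ I₁' : Fin r → M, Function.Bijective (Sum.elim I₁ I₁') := by
    have hc : Fintype.card {m // ¬ m ∈ Set.range I₁} = r := by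
      rw [Fintype.card_subtype_compl]
      have : Fintype.card {m // m ∈ Set.range I₁} = n := by
        have h0 := Set.card_range_of_injective hI₁inj
        rw [Fintype.card_fin] at h0
        exact (Fintype.card_congr (Equiv.refl _)).trans h0
      rw [this, hcard]
      omega
    let g := (Fintype.equivFinOfCardEq hc).symm
    refine ⟨fun l => (g l).1, ?_⟩
    rw [Fintype.bijective_iff_injective_and_card]
    refine ⟨?_, by simp [hcard]⟩
    rintro (i | l) (i' | l') h
    · exact congrArg Sum.inl (hI₁inj h)
    · exact absurd ⟨i, h⟩ (g l').2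
    · exact absurd ⟨i', h.symm⟩ (g l).2
    · exact congrArg Sum.inr (g.injective (Subtype.ext h))
  have hy0 : y ≠ 0 := by
    intro h0
    have h1 : (A.submatrix id I₁).det * b₀ ≠ 0 := mul_ne_zero hI₁ hI₀'
    rcases key I₁ I₁' hbij with h2 | h2
    · exact h1 (by rw [h2, h0, zero_mul])
    · exact h1 (by rw [h2, h0, zero_mul, neg_zero])
  refine ⟨y / b₀, div_ne_zero hy0 hI₀', fun I I' h => ?_⟩
  rcases key I I' h with h2 | h2
  · left
    rw [div_mul_eq_mul_div, ← h2, mul_div_cancel_right₀ _ hI₀']
  · right
    rw [div_mul_eq_mul_div, ← neg_div, ← h2, mul_div_cancel_right₀ _ hI₀']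

end Fermat.Agent.S17
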