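import Fermat.Agent.S17.Loc.FrameGen
import Fermat.Agent.S17.Loc.UB

/-!
# S17 / LOC leaf `MinorsSup`: proofs of `sup_char_le`, `sup_char_ge` (stated in `Loc/Minors.lean`)
-/

set_option autoImplicit false

namespace Fermat.Agent.S17

open Matrix

variable {K R : Type*} [Field K] [CommRing R] [Algebra K R] (F : Frame K R)

/-- Laplace expansion along the first row. -/
theorem MinorsSup_det_row {n : ℕ} (P : R →ₐ[K] K) (Q : Fin n → (R →ₐ[K] K))
    (I : Fin (n + 1) → ℕ) :
    (F.mat (fun a => ⇑((Fin.cons P Q : Fin (n + 1) → (R →ₐ[K] K)) a)) I).det =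
      ∑ b : Fin (n + 1), (-1) ^ (b : ℕ) * P (F.e (I b)) *
        (F.mat (fun a => ⇑(Q a)) (I ∘ b.succAbove)).det := by
  rw [Matrix.det_succ_row_zero]
  refine Finset.sum_congr rfl fun b _ => ?_
  congr 1

/-- Laplace expansion along the first column. -/
theorem MinorsSup_det_col {n : ℕ} (P : Fin (n + 1) → (R →ₐ[K] K)) (j : ℕ) (I : Fin n → ℕ) :
    (F.mat (fun a => ⇑(P a)) (Fin.cons j I : Fin (n + 1) → ℕ)).det =
      ∑ i : Fin (n + 1), (-1) ^ (i : ℕ) * P i (F.e j) *
        (F.mat (fun a => ⇑(P (i.succAbove a))) I).det := by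
  rw [Matrix.det_succ_column_zero]
  refine Finset.sum_congr rfl fun b _ => ?_
  congr 1

/-- the function `g` of `sup_char_ge`. -/
noncomputable def MinorsSup_g {n : ℕ} (Q : Fin n → (R →ₐ[K] K)) (I : Fin (n + 1) → ℕ) : R :=
  ∑ b : Fin (n + 1), ((-1) ^ (b : ℕ) * (F.mat (fun a => ⇑(Q a)) (I ∘ b.succAbove)).det) • F.e (I b)

theorem MinorsSup_apply_g {n : ℕ} (P : R →ₐ[K] K) (Q : Fin n → (R →ₐ[K] K))
    (I : Fin (n + 1) → ℕ) :
    P (MinorsSup_g F Q I) =
      (F.mat (fun a => ⇑((Fin.cons P Q : Fin (n + 1) → (R →ₐ[K] K)) a)) I).det := by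
  rw [MinorsSup_det_row, MinorsSup_g, map_sum]
  refine Finset.sum_congr rfl fun b _ => ?_
  rw [map_smul, smul_eq_mul]
  ring

theorem MinorsSup_ge (N n : ℕ) (P : R →ₐ[K] K) (Q : Fin n → (R →ₐ[K] K)) (I : Fin (n + 1) → ℕ)
    (hI : I ∈ F.idxFam N (n + 1)) :
    ∃ g ∈ F.le N, (∀ k, Q k g = 0) ∧
      P g = (F.mat (fun a => ⇑((Fin.cons P Q : Fin (n + 1) → (R →ₐ[K] K)) a)) I).det ∧
      ∀ v : AbsoluteValue K ℝ, F.cnrm v g ≤ F.wdg v N (fun a => ⇑(Q a)) := by
  classical
  rw [F.mem_idxFam] at hI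
  by_cases hinj : Function.Injective I
  · refine ⟨MinorsSup_g F Q I, ?_, ?_, MinorsSup_apply_g F P Q I, ?_⟩
    · exact Submodule.sum_mem _ fun b _ => Submodule.smul_mem _ _ (F.e_mem_le (hI b))
    · intro k
      rw [MinorsSup_apply_g]
      refine Matrix.det_zero_of_row_eq (i := 0) (j := k.succ) (Fin.succ_ne_zero k).symm ?_
      ext b
      simp [Frame.mat]
    · intro v
      refine Finset.sup'_le _ _ fun i _ => ?_
      have hrepr : F.e.repr (MinorsSup_g F Q I) i = ∑ b : Fin (n + 1),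
          if I b = i then ((-1) ^ (b : ℕ) * (F.mat (fun a => ⇑(Q a)) (I ∘ b.succAbove)).det)
          else 0 := by
        rw [MinorsSup_g, map_sum, Finsupp.finsetSum_apply]
        refine Finset.sum_congr rfl fun b _ => ?_
        rw [map_smul, Finsupp.smul_apply, Module.Basis.repr_self, Finsupp.single_apply, smul_eq_mul]
        split_ifs <;> simp
      rw [hrepr]
      by_cases hex : ∃ b, I b = i
      · obtain ⟨b₀, hb₀⟩ := hex
        rw [Finset.sum_eq_single b₀, if_pos hb₀, map_mul, map_pow, AbsoluteValue.map_neg, map_one,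
          one_pow, one_mul]
        · refine Finset.le_sup' (fun J => v (F.mat (fun a => ⇑(Q a)) J).det) ?_
          rw [F.mem_idxFam]
          exact fun b => hI _
        · intro b _ hb
          rw [if_neg]
          intro h
          exact hb (hinj (h.trans hb₀.symm))
        · intro h
          exact absurd (Finset.mem_univ _) h
      · rw [Finset.sum_eq_zero, map_zero]
        · exact F.wdg_nonneg v N _
        · intro b _
          rw [if_neg]
          exact fun h => hex ⟨b, h⟩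
  · refine ⟨0, Submodule.zero_mem _, fun k => map_zero _, ?_, ?_⟩
    · rw [map_zero]
      rw [Function.Injective] at hinj
      push Not at hinj
      obtain ⟨b, b', hbb, hne⟩ := hinj
      refine (Matrix.det_zero_of_column_eq hne ?_).symm
      intro a
      simp [Frame.mat, hbb]
    · intro v
      refine Finset.sup'_le _ _ fun i _ => ?_
      rw [map_zero, Finsupp.zero_apply, map_zero]
      exact F.wdg_nonneg v N _

/-- multilinearity in the first column. -/
theorem MinorsSup_identity {N n : ℕ} {g : R} (hg : g ∈ F.le N) (P : R →ₐ[K] K)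
    (Q : Fin n → (R →ₐ[K] K)) (hQ : ∀ k, Q k g = 0) (I : Fin n → ℕ) :
    P g * (F.mat (fun a => ⇑(Q a)) I).det =
      ∑ j ∈ F.idx N, F.e.repr g j *
        (F.mat (fun a => ⇑((Fin.cons P Q : Fin (n + 1) → (R →ₐ[K] K)) a))
          (Fin.cons j I : Fin (n + 1) → ℕ)).det := by
  have hap : ∀ P' : R →ₐ[K] K, P' g = ∑ j ∈ F.idx N, F.e.repr g j * P' (F.e j) := by
    intro P'
    conv_lhs => rw [F.eq_sum_idx hg, map_sum]
    refine Finset.sum_congr rfl fun j _ => ?_
    rw [map_smul, smul_eq_mul]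
  simp only [MinorsSup_det_col, Finset.mul_sum]
  rw [Finset.sum_comm]
  have h1 : ∀ i : Fin (n + 1), ∑ j ∈ F.idx N, F.e.repr g j *
      ((-1) ^ (i : ℕ) * (Fin.cons P Q : Fin (n + 1) → (R →ₐ[K] K)) i (F.e j) *
        (F.mat (fun a => ⇑((Fin.cons P Q : Fin (n + 1) → (R →ₐ[K] K)) (i.succAbove a))) I).det) =
      (-1) ^ (i : ℕ) * (Fin.cons P Q : Fin (n + 1) → (R →ₐ[K] K)) i g *
        (F.mat (fun a => ⇑((Fin.cons P Q : Fin (n + 1) → (R →ₐ[K] K)) (i.succAbove a))) I).det := by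
    intro i
    rw [hap, Finset.mul_sum, Finset.sum_mul]
    refine Finset.sum_congr rfl fun j _ => ?_
    ring
  rw [Finset.sum_congr rfl fun i _ => h1 i, Fin.sum_univ_succ]
  rw [Finset.sum_eq_zero]
  · simp
  · intro k _
    simp [hQ k]

theorem MinorsSup_le (N n : ℕ) :
    UBound (α := {x : R × (R →ₐ[K] K) × (Fin n → (R →ₐ[K] K)) //
        x.1 ∈ F.le N ∧ ∀ k, x.2.2 k x.1 = 0})
      (fun v x => v (x.1.2.1 x.1.1) * F.wdg v N (fun a => ⇑(x.1.2.2 a)))
      (fun v x => F.cnrm v x.1.1 *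
        F.wdg v N (fun a => ⇑((Fin.cons x.1.2.1 x.1.2.2 : Fin (n + 1) → (R →ₐ[K] K)) a))) := by
  classical
  refine ⟨∅, by simp, fun v => ?_⟩
  have hdim : (1 : ℝ) ≤ (F.dim N : ℝ) := by exact_mod_cast F.dim_pos N
  refine ⟨if IsNonarchimedean v then 1 else (F.dim N : ℝ), ?_, fun h _ => if_pos h, ?_⟩
  · split_ifs
    · exact le_rfl
    · exact hdim
  rintro ⟨⟨g, P, Q⟩, hg, hQ⟩
  simp only at hg hQ ⊢
  obtain ⟨I, hI, hsup⟩ := Finset.exists_mem_eq_sup' (F.idxFam_nonempty N n)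
    (fun J => v (F.mat (fun a => ⇑(Q a)) J).det)
  have hw : F.wdg v N (fun a => ⇑(Q a)) = v (F.mat (fun a => ⇑(Q a)) I).det := hsup
  rw [hw, ← map_mul, MinorsSup_identity F hg P Q hQ I]
  set B : ℝ := F.cnrm v g *
    F.wdg v N (fun a => ⇑((Fin.cons P Q : Fin (n + 1) → (R →ₐ[K] K)) a)) with hB
  have hterm : ∀ j ∈ F.idx N, v (F.e.repr g j *
      (F.mat (fun a => ⇑((Fin.cons P Q : Fin (n + 1) → (R →ₐ[K] K)) a))
          (Fin.cons j I : Fin (n + 1) → ℕ)).det) ≤ B := by
    intro j hj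
    rw [map_mul, hB]
    refine mul_le_mul ?_ ?_ (v.nonneg _) (F.cnrm_nonneg v g)
    · rw [F.cnrm_eq v hg]
      exact Finset.le_sup' (fun i => v (F.e.repr g i)) hj
    · refine Finset.le_sup' (fun J => v (F.mat
        (fun a => ⇑((Fin.cons P Q : Fin (n + 1) → (R →ₐ[K] K)) a)) J).det) ?_
      rw [F.mem_idxFam] at hI ⊢
      intro b
      refine Fin.cases ?_ (fun b => ?_) b
      · simpa using F.mem_idx.1 hj
      · simpa using hI b
  split_ifs with hna
  · rw [one_mul]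
    obtain ⟨j, hj, hle⟩ := IsNonarchimedean.finset_image_add_of_nonempty hna
      (fun j => F.e.repr g j *
      (F.mat (fun a => ⇑((Fin.cons P Q : Fin (n + 1) → (R →ₐ[K] K)) a))
          (Fin.cons j I : Fin (n + 1) → ℕ)).det) (F.idx_nonempty N)
    exact hle.trans (hterm j hj)
  · refine (v.sum_le _ _).trans ?_
    refine (Finset.sum_le_card_nsmul _ _ _ hterm).trans ?_
    rw [Frame.idx, Finset.card_range, nsmul_eq_mul]

end Fermat.Agent.S17
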