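import Fermat.Agent.S17.Loc.FrameGen
import Fermat.Agent.S17.Loc.UB
import Fermat.Agent.S17.Loc.Jacobi
import Fermat.Agent.S17.Loc.MinorsSup

/-!
# S17 / LOC leaves `Minors`: linear algebra of minors

* `compl_minors` (Jacobi): `A : n × M`, `B : M × r`, `A B = 0`, `#M = n + r`, `A` and `B` of full rank.
  Then the maximal minors of `A` are proportional to the complementary maximal minors of `B`.
  Proof: fix `C : r × M` such that `Y = [A; C]` (`M × M`, after `M ≃ Fin n ⊕ Fin r`) is invertible... more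
  simply: for `I, I'` complementary let `X = [e_I | B]`; `Y X = [[A_I, 0],[C_I, C B]]`,
  `det Y det X = det A_I det (C B)`, `det X = ± det B_{I'}`; take `C` with `det (C B) ≠ 0`, e.g. `C` = selection of the rows
  `I₀'` of a nonzero minor of `B`; then `det Y ≠ 0` follows from the case of a nonzero minor of `A`.
  We only need absolute values, so signs are irrelevant: statement with `c * c' ` below.
* `sup_char_le`, `sup_char_ge`: `|ξ ∧ W| / |W| ≍ sup_{g ∈ W^⊥} |ξ(g)| / |g|`.
* `cofactor`: `d` points, level `n` with `dim n = d + 1`.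
-/

set_option autoImplicit false

namespace Fermat.Agent.S17

open Matrix

/-- Complementary minors (up to sign): there is `c ≠ 0` such that for all complementary
`I : Fin n → M`, `I' : Fin r → M` (i.e. `Sum.elim I I'` bijective)
`det A_I = ± c det B_{I'}`. -/
theorem compl_minors {K : Type*} [Field K] {M : Type*} [Fintype M] [DecidableEq M] {n r : ℕ}
    (A : Matrix (Fin n) M K) (B : Matrix M (Fin r) K) (hAB : A * B = 0)
    (hA : ∃ I : Fin n → M, (A.submatrix id I).det ≠ 0)
    (hB : ∃ I' : Fin r → M, (B.submatrix I' id).det ≠ 0) :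
    ∃ c : K, c ≠ 0 ∧ ∀ (I : Fin n → M) (I' : Fin r → M), Function.Bijective (Sum.elim I I') →
      ((A.submatrix id I).det = c * (B.submatrix I' id).det ∨
        (A.submatrix id I).det = - (c * (B.submatrix I' id).det)) :=
  jacobi_compl_minors A B hAB hA hB

variable {K R : Type*} [Field K] [CommRing R] [Algebra K R] (F : Frame K R)

/-- `g` vanishes at the `Q_k`: `|g(P)| |∧ξ(Q)| ≲ |g| |ξ(P) ∧ ∧ξ(Q)|`.
Proof: for `I ∈ idxFam N n`: `∑_{j ∈ idx N} g_j det (mat (cons P Q) (cons j I)) = g(P) det (mat Q I)`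
(multilinearity in the first column; the first column becomes `(g(P), g(Q_k) = 0)`;
`Matrix.det_succ_column_zero`). -/
theorem sup_char_le (N n : ℕ) :
    UBound (α := {x : R × (R →ₐ[K] K) × (Fin n → (R →ₐ[K] K)) //
        x.1 ∈ F.le N ∧ ∀ k, x.2.2 k x.1 = 0})
      (fun v x => v (x.1.2.1 x.1.1) * F.wdg v N (fun a => ⇑(x.1.2.2 a)))
      (fun v x => F.cnrm v x.1.1 *
        F.wdg v N (fun a => ⇑((Fin.cons x.1.2.1 x.1.2.2 : Fin (n + 1) → (R →ₐ[K] K)) a))) :=
  MinorsSup_le F N n

/-- Every coordinate of `ξ(P) ∧ ∧ξ(Q)` is `g(P)` for some `g ∈ L(N)` vanishing at the `Q_k` with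
`|g|_v ≤ |∧ξ(Q)|_v` for all `v`.  (`g = ∑_b ± det (minor) e_{I b}` if `I` is injective, `g = 0` otherwise;
Laplace expansion along the first row `Matrix.det_succ_row_zero`.) -/
theorem sup_char_ge (N n : ℕ) (P : R →ₐ[K] K) (Q : Fin n → (R →ₐ[K] K)) (I : Fin (n + 1) → ℕ)
    (hI : I ∈ F.idxFam N (n + 1)) :
    ∃ g ∈ F.le N, (∀ k, Q k g = 0) ∧
      P g = (F.mat (fun a => ⇑((Fin.cons P Q : Fin (n + 1) → (R →ₐ[K] K)) a)) I).det ∧
      ∀ v : AbsoluteValue K ℝ, F.cnrm v g ≤ F.wdg v N (fun a => ⇑(Q a)) :=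
  MinorsSup_ge F N n P Q I hI

/-- the family of the indices `≠ i` in `{0, …, d}`. -/
def cofactor_omit (d : ℕ) (i : Fin (d + 1)) : Fin d → ℕ :=
  fun b => ((i.succAbove b : Fin (d + 1)) : ℕ)

/-- an injective family of `d` indices `< d + 1` is a permutation of some `cofactor_omit d i`. -/
theorem cofactor_exists_perm {d : ℕ} (J : Fin d → ℕ) (hJ : ∀ b, J b < d + 1)
    (hinj : Function.Injective J) :
    ∃ (i : Fin (d + 1)) (σ : Equiv.Perm (Fin d)), ∀ b, J b = cofactor_omit d i (σ b) := by
  classical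
  let J' : Fin d → Fin (d + 1) := fun b => ⟨J b, hJ b⟩
  have hJ'inj : Function.Injective J' := fun b b' h => hinj (congrArg Fin.val h)
  have hns : ¬ Function.Surjective J' := by
    intro hs
    have := Fintype.card_le_of_surjective J' hs
    simp at this
  rw [Function.Surjective] at hns
  push Not at hns
  obtain ⟨i, hi⟩ := hns
  have hex : ∀ b, ∃ c, i.succAbove c = J' b := fun b => Fin.exists_succAbove_eq (hi b)
  choose s hs using hex
  have hsinj : Function.Injective s := by
    intro b b' h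
    apply hJ'inj
    rw [← hs b, ← hs b', h]
  have hsbij : Function.Bijective s := Finite.injective_iff_bijective.mp hsinj
  refine ⟨i, Equiv.ofBijective s hsbij, fun b => ?_⟩
  show J b = ((i.succAbove (s b) : Fin (d + 1)) : ℕ)
  rw [hs b]

theorem cofactor_abv_sign (v : AbsoluteValue K ℝ) {d : ℕ} (σ : Equiv.Perm (Fin d)) (x : K) :
    v (((Equiv.Perm.sign σ : ℤˣ) : ℤ) * x) = v x := by
  rcases Int.units_eq_one_or (Equiv.Perm.sign σ) with h | h
  · rw [h]
    simp
  · rw [h]
    simp

/-- The cofactor function of `d` points at a level `n` with `dim n = d + 1`. -/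
theorem cofactor (n d : ℕ) (hd : F.dim n = d + 1) (P : Fin d → (R →ₐ[K] K)) :
    ∃ φ ∈ F.le n, (∀ a, P a φ = 0) ∧
      (∀ v : AbsoluteValue K ℝ, F.cnrm v φ = F.wdg v n (fun a => ⇑(P a))) ∧
      ∀ i, F.e.repr φ i = 0 ∨ ∃ I ∈ F.idxFam n d,
        (F.e.repr φ i = (F.mat (fun a => ⇑(P a)) I).det ∨
          F.e.repr φ i = - (F.mat (fun a => ⇑(P a)) I).det) := by
  classical
  set Pf : Fin d → R → K := fun a => ⇑(P a) with hPf
  set c : Fin (d + 1) → K :=
    fun i => (-1) ^ (i : ℕ) * (F.mat Pf (cofactor_omit d i)).det with hc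
  set φ : R := ∑ i : Fin (d + 1), c i • F.e (i : ℕ) with hφ
  have hwt : ∀ i : Fin (d + 1), F.wt (i : ℕ) ≤ n := fun i =>
    F.lt_dim_iff.mp (by rw [hd]; exact i.2)
  have hmem : φ ∈ F.le n :=
    Submodule.sum_mem _ fun i _ => Submodule.smul_mem _ _ (F.e_mem_le (hwt i))
  have hrepr : ∀ i : Fin (d + 1), F.e.repr φ (i : ℕ) = c i := by
    intro i
    rw [hφ, map_sum, Finsupp.finsetSum_apply]
    simp only [map_smul, Module.Basis.repr_self, Finsupp.smul_apply, smul_eq_mul]
    rw [Finset.sum_eq_single i]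
    · rw [Finsupp.single_eq_same, mul_one]
    · intro j _ hj
      rw [Finsupp.single_apply, if_neg (fun h => hj (Fin.ext h)), mul_zero]
    · intro h
      exact absurd (Finset.mem_univ i) h
  have hrepr0 : ∀ i : ℕ, d + 1 ≤ i → F.e.repr φ i = 0 := by
    intro i hi
    refine F.mem_le_iff.mp hmem i ?_
    by_contra h
    have := F.lt_dim_iff.mpr (not_lt.mp h)
    omega
  have hJ : ∀ i : Fin (d + 1), cofactor_omit d i ∈ F.idxFam n d := fun i =>
    F.mem_idxFam.mpr fun b => hwt _
  have hvc : ∀ (v : AbsoluteValue K ℝ) (i : Fin (d + 1)),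
      v (c i) = v (F.mat Pf (cofactor_omit d i)).det := by
    intro v i
    rw [hc]
    simp only [map_mul, map_pow, AbsoluteValue.map_neg, map_one, one_pow, one_mul]
  refine ⟨φ, hmem, ?_, ?_, ?_⟩
  · intro a
    let A : Matrix (Fin (d + 1)) (Fin (d + 1)) K :=
      Matrix.of fun r j => (Fin.cons (P a) P : Fin (d + 1) → (R →ₐ[K] K)) r (F.e (j : ℕ))
    have hdet : A.det = P a φ := by
      rw [Matrix.det_succ_row_zero, hφ, map_sum]
      refine Finset.sum_congr rfl fun j _ => ?_
      rw [map_smul, smul_eq_mul, hc]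
      have h1 : A.submatrix Fin.succ j.succAbove = F.mat Pf (cofactor_omit d j) := by
        ext r b
        rfl
      rw [h1]
      show (-1) ^ (j : ℕ) * P a (F.e (j : ℕ)) * _ = _
      ring
    rw [← hdet]
    refine Matrix.det_zero_of_row_eq (i := 0) (j := a.succ) (Fin.succ_ne_zero a).symm ?_
    ext j
    rfl
  · intro v
    rw [F.cnrm_eq v hmem]
    apply le_antisymm
    · refine Finset.sup'_le _ _ fun i hi => ?_
      have hi' : i < d + 1 := by
        rw [← hd]
        exact Finset.mem_range.mp hi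
      have h1 := hrepr ⟨i, hi'⟩
      simp only at h1
      rw [h1, hvc]
      exact Finset.le_sup' (fun J => v (F.mat Pf J).det) (hJ ⟨i, hi'⟩)
    · unfold Frame.wdg
      refine Finset.sup'_le _ _ fun J hJ' => ?_
      have h00 : (0 : ℕ) ∈ F.idx n := F.mem_idx.mpr (by rw [F.wt_zero]; exact Nat.zero_le _)
      by_cases hinj : Function.Injective J
      · have hlt : ∀ b, J b < d + 1 := fun b => by
          rw [← hd]
          exact F.lt_dim_iff.mpr (F.mem_idxFam.mp hJ' b)
        obtain ⟨i, σ, hσ⟩ := cofactor_exists_perm J hlt hinj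
        have h1 : F.mat Pf J = (F.mat Pf (cofactor_omit d i)).submatrix id σ := by
          ext a b
          show Pf a (F.e (J b)) = Pf a (F.e (cofactor_omit d i (σ b)))
          rw [hσ b]
        rw [h1, Matrix.det_permute', cofactor_abv_sign, ← hvc, ← hrepr i]
        exact Finset.le_sup' (fun i => v (F.e.repr φ i))
          (Finset.mem_range.mpr (by rw [hd]; exact i.2))
      · have h1 : (F.mat Pf J).det = 0 := by
          rw [Function.Injective] at hinj
          push Not at hinj
          obtain ⟨b, b', hbb, hne⟩ := hinj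
          refine Matrix.det_zero_of_column_eq hne fun a => ?_
          show Pf a (F.e (J b)) = Pf a (F.e (J b'))
          rw [hbb]
        rw [h1, map_zero]
        exact (v.nonneg _).trans (Finset.le_sup' (fun i => v (F.e.repr φ i)) h00)
  · intro i
    by_cases hi : i < d + 1
    · right
      refine ⟨cofactor_omit d ⟨i, hi⟩, hJ _, ?_⟩
      have h1 := hrepr ⟨i, hi⟩
      simp only at h1
      rw [h1, hc]
      rcases neg_one_pow_eq_or K i with h | h
      · left
        simp only [h, one_mul]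
      · right
        simp only [h, neg_mul, one_mul]
    · left
      exact hrepr0 i (by omega)

/-- a complementary family. -/
theorem Minors_exists_compl {M : Type*} [Fintype M] [DecidableEq M] {n r : ℕ}
    (hM : Fintype.card M = n + r) (I : Fin n → M) (hI : Function.Injective I) :
    ∃ I' : Fin r → M, Function.Bijective (Sum.elim I I') := by
  classical
  have hcard : Fintype.card {x : M // x ∉ Set.range I} = r := by
    have h1 : Fintype.card {x : M // x ∈ Set.range I} = n := by
      have := Fintype.card_congr (Equiv.ofInjective I hI)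
      rw [Fintype.card_fin] at this
      exact this.symm
    have h2 := Fintype.card_subtype_compl (fun x : M => x ∈ Set.range I)
    rw [h2, h1, hM]
    omega
  let e : Fin r ≃ {x : M // x ∉ Set.range I} := (Fintype.equivFinOfCardEq hcard).symm
  refine ⟨fun l => (e l : M), ?_⟩
  rw [Fintype.bijective_iff_injective_and_card]
  refine ⟨?_, by rw [Fintype.card_sum, Fintype.card_fin, Fintype.card_fin, hM]⟩
  rintro (a | a) (b | b) h
  · exact congrArg Sum.inl (hI h)
  · exact absurd ⟨a, h⟩ (e b).2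
  · exact absurd ⟨b, h.symm⟩ (e a).2
  · exact congrArg Sum.inr (e.injective (Subtype.ext h))

theorem Minors_exists_compl' {M : Type*} [Fintype M] [DecidableEq M] {n r : ℕ}
    (hM : Fintype.card M = n + r) (I' : Fin r → M) (hI' : Function.Injective I') :
    ∃ I : Fin n → M, Function.Bijective (Sum.elim I I') := by
  obtain ⟨I, hI⟩ := Minors_exists_compl (n := r) (r := n) (by rw [hM, add_comm]) I' hI'
  refine ⟨I, ?_⟩
  have : Sum.elim I I' = Sum.elim I' I ∘ Sum.swap := by
    funext x
    cases x <;> rfl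
  rw [this]
  exact hI.comp (Equiv.sumComm _ _).bijective

/-- a minor with a repeated column vanishes. -/
theorem Minors_det_col_eq_zero {K : Type*} [Field K] {M : Type*} {n : ℕ} (A : Matrix (Fin n) M K)
    (I : Fin n → M) (hI : ¬ Function.Injective I) : (A.submatrix id I).det = 0 := by
  unfold Function.Injective at hI
  push Not at hI
  obtain ⟨a, b, hab, hne⟩ := hI
  refine Matrix.det_zero_of_column_eq hne fun k => ?_
  simp only [Matrix.submatrix_apply, hab]

theorem Minors_det_row_eq_zero {K : Type*} [Field K] {M : Type*} {r : ℕ} (B : Matrix M (Fin r) K)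
    (I' : Fin r → M) (hI' : ¬ Function.Injective I') : (B.submatrix I' id).det = 0 := by
  unfold Function.Injective at hI'
  push Not at hI'
  obtain ⟨a, b, hab, hne⟩ := hI'
  refine Matrix.det_zero_of_row_eq hne ?_
  funext k
  simp only [Matrix.submatrix_apply, hab]

/-- Complementary minors for `f L(N-n) = {g ∈ L(N) | g(Q_k) = 0}`: scalar-free form.
`r = dim (N - n)`, `dim N = n + r`.  Apply `compl_minors` with `M = Fin (dim N)`,
`A = (Q_k (e j))`, `B = (coefficient j of f e_l)`; `B` has full rank because `f e_l`, `l < r`, have distinct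
degrees `deg f + wt l` (triangular minor). -/
theorem compl_minors_frame (N n r : ℕ) (hr : F.dim N = n + r) (f : R) (hf : f ≠ 0)
    (hfr : ∀ l, l < r → f * F.e l ∈ F.le N) (Q : Fin n → (R →ₐ[K] K)) (hQ : ∀ k, Q k f = 0)
    (hW : ∃ I ∈ F.idxFam N n, (F.mat (fun a => ⇑(Q a)) I).det ≠ 0) :
    ∃ I ∈ F.idxFam N n, ∃ I' ∈ F.idxFam N r, (F.mat (fun a => ⇑(Q a)) I).det ≠ 0 ∧
      (bmat F f I').det ≠ 0 ∧ ∀ v : AbsoluteValue K ℝ,
        F.wdg v N (fun a => ⇑(Q a)) * v (bmat F f I').det =
          v (F.mat (fun a => ⇑(Q a)) I).det * bwdg F v N r f := by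
  classical
  let A : Matrix (Fin n) (Fin (F.dim N)) K := Matrix.of fun k j => Q k (F.e (j : ℕ))
  let B : Matrix (Fin (F.dim N)) (Fin r) K :=
    Matrix.of fun j l => F.e.repr (f * F.e (l : ℕ)) (j : ℕ)
  have hcard : Fintype.card (Fin (F.dim N)) = n + r := by rw [Fintype.card_fin, hr]
  -- dictionary
  have hmatA : ∀ J : Fin n → Fin (F.dim N),
      F.mat (fun a => ⇑(Q a)) (fun b => (J b : ℕ)) = A.submatrix id J := fun J => rfl
  have hmatB : ∀ J' : Fin r → Fin (F.dim N),
      (bmat F f (fun b => (J' b : ℕ))).det = (B.submatrix J' id).det := by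
    intro J'
    rw [← Matrix.det_transpose]
    rfl
  have hliftmem : ∀ (d : ℕ) (J : Fin d → Fin (F.dim N)), (fun b => (J b : ℕ)) ∈ F.idxFam N d :=
    fun d J => F.mem_idxFam.mpr fun b => F.lt_dim_iff.mp (J b).2
  have hlift : ∀ (d : ℕ) (J : Fin d → ℕ), J ∈ F.idxFam N d →
      ∃ J₀ : Fin d → Fin (F.dim N), J = fun b => (J₀ b : ℕ) :=
    fun d J hJ => ⟨fun b => ⟨J b, F.lt_dim_iff.mpr (F.mem_idxFam.mp hJ b)⟩, rfl⟩
  -- `A * B = 0`
  have hAB : A * B = 0 := by
    ext k l
    rw [Matrix.mul_apply, Matrix.zero_apply]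
    have h1 := congrArg (Q k) (F.eq_sum_idx (hfr l l.2))
    rw [map_mul, hQ, zero_mul, map_sum] at h1
    rw [h1]
    have h2 := Fin.sum_univ_eq_sum_range
      (fun j : ℕ => Q k (F.e j) * F.e.repr (f * F.e (l : ℕ)) j) (F.dim N)
    refine h2.trans (Finset.sum_congr rfl fun j _ => ?_)
    rw [map_smul, smul_eq_mul, mul_comm]
  have hA : ∃ I : Fin n → Fin (F.dim N), (A.submatrix id I).det ≠ 0 := by
    obtain ⟨I, hI, hdet⟩ := hW
    obtain ⟨I₀, rfl⟩ := hlift n I hI
    exact ⟨I₀, by rw [← hmatA]; exact hdet⟩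
  have hB : ∃ I' : Fin r → Fin (F.dim N), (B.submatrix I' id).det ≠ 0 := by
    have hne : ∀ l : Fin r, f * F.e (l : ℕ) ≠ 0 := fun l => F.mul_ne_zero' hf (F.e.ne_zero _)
    choose t ht1 ht2 ht3 using fun l : Fin r => F.exists_top (hne l)
    have htD : ∀ l : Fin r, t l < F.dim N := by
      intro l
      rw [F.lt_dim_iff, ht1]
      exact F.mem_le_iff_deg.mp (hfr l l.2)
    have hmono : ∀ l l' : Fin r, l < l' → t l < t l' := by
      intro l l' hll
      rw [← F.wt_strictMono.lt_iff_lt, ht1, ht1, F.deg_mul hf (F.e.ne_zero _),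
        F.deg_mul hf (F.e.ne_zero _), F.deg_e, F.deg_e]
      exact Nat.add_lt_add_left (F.wt_strictMono hll) _
    refine ⟨fun l => ⟨t l, htD l⟩, ?_⟩
    have htri : (B.submatrix (fun l => (⟨t l, htD l⟩ : Fin (F.dim N))) id).BlockTriangular id := by
      intro i j hij
      exact ht3 j (t i) (hmono j i hij)
    rw [Matrix.det_of_isUpperTriangular htri]
    exact Finset.prod_ne_zero_iff.mpr fun l _ => ht2 l
  obtain ⟨c, hc, hcompl⟩ := compl_minors A B hAB hA hB
  have hv : ∀ (v : AbsoluteValue K ℝ) (I : Fin n → Fin (F.dim N)) (I' : Fin r → Fin (F.dim N)),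
      Function.Bijective (Sum.elim I I') →
      v (A.submatrix id I).det = v c * v (B.submatrix I' id).det := by
    intro v I I' hII
    rcases hcompl I I' hII with h | h
    · rw [h, map_mul]
    · rw [h, AbsoluteValue.map_neg, map_mul]
  have hbw0 : ∀ v : AbsoluteValue K ℝ, 0 ≤ bwdg F v N r f := by
    intro v
    obtain ⟨J, hJ⟩ := F.idxFam_nonempty N r
    exact (v.nonneg _).trans (Finset.le_sup' (fun J' => v (bmat F f J').det) hJ)
  have hwdg : ∀ v : AbsoluteValue K ℝ,
      F.wdg v N (fun a => ⇑(Q a)) = v c * bwdg F v N r f := by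
    intro v
    have hvc : 0 < v c := v.pos hc
    apply le_antisymm
    · refine Finset.sup'_le _ _ fun J hJ => ?_
      obtain ⟨J₀, rfl⟩ := hlift n J hJ
      rw [hmatA]
      by_cases hinj : Function.Injective J₀
      · obtain ⟨J', hJ'⟩ := Minors_exists_compl hcard J₀ hinj
        rw [hv v J₀ J' hJ', ← hmatB]
        exact mul_le_mul_of_nonneg_left
          (Finset.le_sup' (fun J' => v (bmat F f J').det) (hliftmem r J')) hvc.le
      · rw [Minors_det_col_eq_zero A J₀ hinj, map_zero]
        exact mul_nonneg hvc.le (hbw0 v)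
    · rw [← le_div_iff₀' hvc]
      refine Finset.sup'_le _ _ fun J' hJ' => ?_
      obtain ⟨J₀, rfl⟩ := hlift r J' hJ'
      rw [hmatB, le_div_iff₀' hvc]
      by_cases hinj : Function.Injective J₀
      · obtain ⟨J, hJ⟩ := Minors_exists_compl' hcard J₀ hinj
        rw [← hv v J J₀ hJ, ← hmatA]
        exact Finset.le_sup' (fun J => v (F.mat (fun a => ⇑(Q a)) J).det) (hliftmem n J)
      · rw [Minors_det_row_eq_zero B J₀ hinj, map_zero, mul_zero]
        exact F.wdg_nonneg v N _
  obtain ⟨I₀, hI₀⟩ := hA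
  have hinj : Function.Injective I₀ := by
    by_contra h
    exact hI₀ (Minors_det_col_eq_zero A I₀ h)
  obtain ⟨I', hI'⟩ := Minors_exists_compl hcard I₀ hinj
  have hB0 : (B.submatrix I' id).det ≠ 0 := by
    intro h0
    rcases hcompl I₀ I' hI' with h | h
    · exact hI₀ (by rw [h, h0, mul_zero])
    · exact hI₀ (by rw [h, h0, mul_zero, neg_zero])
  refine ⟨fun b => (I₀ b : ℕ), hliftmem n I₀, fun b => (I' b : ℕ), hliftmem r I', ?_, ?_, ?_⟩
  · rw [hmatA]
    exact hI₀
  · rw [hmatB]
    exact hB0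
  · intro v
    rw [hwdg v, hmatA, hmatB, hv v I₀ I' hI']
    ring

theorem Minors_ub_congr {K : Type*} [Field K] {α : Type*} {A A' B B' : AbsoluteValue K ℝ → α → ℝ}
    (h : UBound A B) (hA : ∀ v x, A' v x = A v x) (hB : ∀ v x, B v x = B' v x) : UBound A' B' := by
  have h1 : A' = A := funext fun v => funext fun x => hA v x
  have h2 : B = B' := funext fun v => funext fun x => hB v x
  rw [h1, ← h2]
  exact h

/-- the entries of `bmat` are linear in the coefficients of `f`. -/
theorem Minors_repr_mul {n : ℕ} {f : R} (hf : f ∈ F.le n) (l j : ℕ) :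
    F.e.repr (f * F.e l) j = ∑ i ∈ F.idx n, F.e.repr (F.e i * F.e l) j * F.e.repr f i := by
  conv_lhs => rw [F.eq_sum_idx hf, Finset.sum_mul, map_sum, Finsupp.finsetSum_apply]
  refine Finset.sum_congr rfl fun i _ => ?_
  rw [smul_mul_assoc, map_smul, Finsupp.smul_apply, smul_eq_mul, mul_comm]

theorem Minors_entry_ub (n l j : ℕ) :
    UBound (α := {f : R // f ∈ F.le n}) (fun v f => v (F.e.repr (f.1 * F.e l) j))
      (fun v f => F.cnrm v f.1) := by
  refine Minors_ub_congr (UBound.linear (α := {f : R // f ∈ F.le n}) (F.idx n) (F.idx_nonempty n)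
    (fun i => F.e.repr (F.e i * F.e l) j) (fun i f => F.e.repr f.1 i)) ?_ ?_
  · intro v f
    rw [Minors_repr_mul F f.2]
  · intro v f
    rw [F.cnrm_eq v f.2]

/-- `|Pluecker(f L)| ≲ |f|^r` (Leibniz formula; the entries of `bmat` are linear in the coefficients of
`f` with structure constants as coefficients). -/
theorem bwdg_le (N n r : ℕ) :
    UBound (α := {f : R // f ∈ F.le n}) (fun v f => bwdg F v N r f.1)
      (fun v f => F.cnrm v f.1 ^ r) := by
  have hB : ∀ (v : AbsoluteValue K ℝ) (f : {f : R // f ∈ F.le n}), 0 ≤ F.cnrm v f.1 ^ r :=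
    fun v f => pow_nonneg (F.cnrm_nonneg v f.1) r
  unfold bwdg
  refine UBound.sup' _ _ (fun J' _ => ?_) hB
  -- one permutation
  have hσ : ∀ σ : Equiv.Perm (Fin r), UBound (α := {f : R // f ∈ F.le n})
      (fun v f => v (∏ l, bmat F f.1 J' (σ l) l)) (fun v f => F.cnrm v f.1 ^ r) := by
    intro σ
    refine Minors_ub_congr (UBound.prod (α := {f : R // f ∈ F.le n}) (Finset.univ : Finset (Fin r))
      (A := fun l v f => v (F.e.repr (f.1 * F.e ((σ l : Fin r) : ℕ)) (J' l)))
      (B := fun _ v f => F.cnrm v f.1)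
      (fun l _ => Minors_entry_ub F n _ _) (fun l _ v f => v.nonneg _)) ?_ ?_
    · intro v f
      rw [map_prod]
      rfl
    · intro v f
      rw [Finset.prod_const, Finset.card_univ, Fintype.card_fin]
  refine UBound.trans (Minors_ub_congr (UBound.linear (α := {f : R // f ∈ F.le n})
    (Finset.univ : Finset (Equiv.Perm (Fin r))) Finset.univ_nonempty
    (fun σ => ((Equiv.Perm.sign σ : ℤ) : K)) (fun σ f => ∏ l, bmat F f.1 J' (σ l) l))
    (fun v f => by rw [Matrix.det_apply']) (fun v f => rfl))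
    (UBound.sup' _ _ (fun σ _ => hσ σ) hB)

end Fermat.Agent.S17
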