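import Fermat.Agent.S17.Loc.VH
import Fermat.Agent.S17.Loc.Minors
import Fermat.Agent.S17.Val.VE

/-!
# S17 / LOC leaf `KT`: the uniform Weil decomposition

`f ∈ R` of degree `n ≥ 4g` with `n` distinct zeros `Q_k` (and: every `h` vanishing at all `Q_k` is divisible
by `f`), `P` a point with `f(P) ≠ 0`:
`|f(P)| ∏_k |P|_{n1} |Q_k|_{n1}  ≍  |f| |P|_n ∏_k |ξ(P) ∧ ξ(Q_k)|_{n1}`.

Proof.  `N := (n + 1) * n1 + 4 g + n`.  Write `≍` for `UBound` in both directions.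
(1) `vdm_hard`, `vdm_easy` for the `n + 1` points `cons P Q` and for the `n` points `Q` at level `N`; the pairs of
`Fin (n+1)` are `(0, k+1)` and `(k+1, l+1)`; dividing (all factors are `> 0`: `wdg_two_pos`, `one_le_nrm`, and then
`wdg v N Q > 0` by `vdm_hard`):
`wdg N (cons P Q) * ∏_k |P|_{n1}|Q_k|_{n1} ≍ wdg N Q * |P|_N * ∏_k wdg n1 (P, Q_k)`.
(2) `wdg N (cons P Q) * |f| ≲ |f(P)| * |P|_{N-n} * wdg N Q`: take the maximising `I`, `g` from `sup_char_ge`, `g = f h`,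
`deg h ≤ N - n`, `|g(P)| = |f(P)||h(P)| ≲ |f(P)| |h| |P|_{N-n}` (`eval_le`), `|f||h| ≲ |g| ≤ wdg N Q` (`cnrm_mul_ge`).
(3) `|f(P)| * |P|_{N-n} * wdg N Q ≲ |f| * wdg N (cons P Q)`: `g = f e_i` with `|e_i(P)| = |P|_{N-n}`, `sup_char_le`,
`|f e_i| ≲ |f|` (`cnrm_mul_le`, `cnrm (e i) = 1`).
(4) `|P|_N ≍ |P|_{N-n} |P|_n` (`nrm_mul_le`, `nrm_add_le`).
-/

set_option autoImplicit false

namespace Fermat.Agent.S17

variable {K R : Type*} [Field K] [CommRing R] [Algebra K R] (F : Frame K R)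

/-- the data of `KT`. -/
def KTData (n : ℕ) : Type _ :=
  {x : R × (Fin n → (R →ₐ[K] K)) × (R →ₐ[K] K) // F.deg x.1 = n ∧ Function.Injective x.2.1 ∧
    (∀ k, x.2.1 k x.1 = 0) ∧ (∀ h : R, (∀ k, x.2.1 k h = 0) → x.1 ∣ h) ∧ x.2.2 x.1 ≠ 0}

noncomputable def ktX (v : AbsoluteValue K ℝ) {n : ℕ} (x : KTData F n) : ℝ :=
  v (x.1.2.2 x.1.1) * ∏ k, (F.nrm v F.n1 x.1.2.2 * F.nrm v F.n1 (x.1.2.1 k))

noncomputable def ktY (v : AbsoluteValue K ℝ) {n : ℕ} (x : KTData F n) : ℝ :=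
  F.cnrm v x.1.1 * F.nrm v n x.1.2.2 *
    ∏ k, F.wdg v F.n1 (fun a => ⇑(two x.1.2.2 (x.1.2.1 k) a))

/-! ### auxiliary calculus -/

theorem kt_ub_mul_right {α : Type*} {A B D : AbsoluteValue K ℝ → α → ℝ} (h : UBound A B)
    (hD : ∀ v x, 0 ≤ D v x) :
    UBound (fun v x => A v x * D v x) (fun v x => B v x * D v x) := by
  obtain ⟨S, hS, H⟩ := h
  refine ⟨S, hS, fun v => ?_⟩
  obtain ⟨c, h1, hn, hb⟩ := H v
  refine ⟨c, h1, hn, fun x => ?_⟩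
  calc A v x * D v x ≤ (c * B v x) * D v x := mul_le_mul_of_nonneg_right (hb x) (hD v x)
    _ = c * (B v x * D v x) := by ring

theorem kt_ub_congr {α : Type*} {A B A' B' : AbsoluteValue K ℝ → α → ℝ} (h : UBound A B)
    (hA : ∀ v x, A' v x = A v x) (hB : ∀ v x, B v x = B' v x) : UBound A' B' := by
  have e1 : A' = A := by funext v x; exact hA v x
  have e2 : B' = B := by funext v x; exact (hB v x).symm
  rw [e1, e2]
  exact h

theorem kt_prod_pairs_succ {M : Type*} [CommMonoid M] (n : ℕ)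
    (f : Fin (n + 1) → Fin (n + 1) → M) :
    ∏ p ∈ pairs (n + 1), f p.1 p.2 =
      (∏ k : Fin n, f 0 k.succ) * ∏ p ∈ pairs n, f p.1.succ p.2.succ := by
  rw [vh_prod_pairs, vh_prod_pairs n (fun a b => f a.succ b.succ), Fin.prod_univ_succ]
  simp [Fin.prod_univ_succ, Finset.prod_mul_distrib]

/-! ### the factors -/

noncomputable def ktW (v : AbsoluteValue K ℝ) (N : ℕ) {n : ℕ} (x : KTData F n) : ℝ :=
  F.wdg v N (fun a => ⇑(x.1.2.1 a))

noncomputable def ktW' (v : AbsoluteValue K ℝ) (N : ℕ) {n : ℕ} (x : KTData F n) : ℝ :=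
  F.wdg v N (fun a => ⇑((Fin.cons x.1.2.2 x.1.2.1 : Fin (n + 1) → (R →ₐ[K] K)) a))

noncomputable def ktPq (v : AbsoluteValue K ℝ) {n : ℕ} (x : KTData F n) : ℝ :=
  ∏ k, (F.nrm v F.n1 x.1.2.2 * F.nrm v F.n1 (x.1.2.1 k))

noncomputable def ktPw (v : AbsoluteValue K ℝ) {n : ℕ} (x : KTData F n) : ℝ :=
  ∏ k, F.wdg v F.n1 (fun a => ⇑(two x.1.2.2 (x.1.2.1 k) a))

noncomputable def ktPiQ (v : AbsoluteValue K ℝ) {n : ℕ} (x : KTData F n) : ℝ :=
  ∏ p ∈ pairs n, (F.nrm v F.n1 (x.1.2.1 p.1) * F.nrm v F.n1 (x.1.2.1 p.2))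

noncomputable def ktOmQ (v : AbsoluteValue K ℝ) {n : ℕ} (x : KTData F n) : ℝ :=
  ∏ p ∈ pairs n, F.wdg v F.n1 (fun a => ⇑(two (x.1.2.1 p.1) (x.1.2.1 p.2) a))

noncomputable def ktSQ (v : AbsoluteValue K ℝ) (N : ℕ) {n : ℕ} (x : KTData F n) : ℝ :=
  ∏ a, F.nrm v N (x.1.2.1 a)

theorem kt_nrm_pos (v : AbsoluteValue K ℝ) (m : ℕ) (P : R →ₐ[K] K) : 0 < F.nrm v m P :=
  lt_of_lt_of_le zero_lt_one (F.one_le_nrm v m P)

theorem kt_vdmA_cons (v : AbsoluteValue K ℝ) (N : ℕ) {n : ℕ} (x : KTData F n) :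
    vdmA F v N (Fin.cons x.1.2.2 x.1.2.1 : Fin (n + 1) → (R →ₐ[K] K)) =
      ktW' F v N x * (ktPq F v x * ktPiQ F v x) := by
  unfold vdmA ktW' ktPq ktPiQ
  rw [kt_prod_pairs_succ n (fun a b =>
    F.nrm v F.n1 ((Fin.cons x.1.2.2 x.1.2.1 : Fin (n + 1) → (R →ₐ[K] K)) a) *
      F.nrm v F.n1 ((Fin.cons x.1.2.2 x.1.2.1 : Fin (n + 1) → (R →ₐ[K] K)) b))]
  simp only [Fin.cons_zero, Fin.cons_succ]

theorem kt_vdmB_cons (v : AbsoluteValue K ℝ) (N : ℕ) {n : ℕ} (x : KTData F n) :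
    vdmB F v N (Fin.cons x.1.2.2 x.1.2.1 : Fin (n + 1) → (R →ₐ[K] K)) =
      (F.nrm v N x.1.2.2 * ktSQ F v N x) * (ktPw F v x * ktOmQ F v x) := by
  unfold vdmB ktSQ ktPw ktOmQ
  rw [kt_prod_pairs_succ n (fun a b => F.wdg v F.n1 (fun c =>
    ⇑(two ((Fin.cons x.1.2.2 x.1.2.1 : Fin (n + 1) → (R →ₐ[K] K)) a)
      ((Fin.cons x.1.2.2 x.1.2.1 : Fin (n + 1) → (R →ₐ[K] K)) b) c))), Fin.prod_univ_succ]
  simp only [Fin.cons_zero, Fin.cons_succ]

theorem kt_vdmA (v : AbsoluteValue K ℝ) (N : ℕ) {n : ℕ} (x : KTData F n) :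
    vdmA F v N x.1.2.1 = ktW F v N x * ktPiQ F v x := rfl

theorem kt_vdmB (v : AbsoluteValue K ℝ) (N : ℕ) {n : ℕ} (x : KTData F n) :
    vdmB F v N x.1.2.1 = ktSQ F v N x * ktOmQ F v x := rfl

theorem kt_f_ne_zero {n : ℕ} (x : KTData F n) : x.1.1 ≠ 0 := by
  intro h
  exact x.2.2.2.2.2 (by rw [h, map_zero])

theorem kt_P_ne {n : ℕ} (x : KTData F n) (k : Fin n) : x.1.2.2 ≠ x.1.2.1 k := by
  intro h
  apply x.2.2.2.2.2
  rw [h]
  exact x.2.2.2.1 k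

theorem ktPq_pos (v : AbsoluteValue K ℝ) {n : ℕ} (x : KTData F n) : 0 < ktPq F v x :=
  Finset.prod_pos fun _ _ => mul_pos (kt_nrm_pos F v _ _) (kt_nrm_pos F v _ _)

theorem ktPw_pos (v : AbsoluteValue K ℝ) {n : ℕ} (x : KTData F n) : 0 < ktPw F v x :=
  Finset.prod_pos fun k _ => F.wdg_two_pos v (kt_P_ne F x k)

theorem ktPiQ_pos (v : AbsoluteValue K ℝ) {n : ℕ} (x : KTData F n) : 0 < ktPiQ F v x :=
  Finset.prod_pos fun _ _ => mul_pos (kt_nrm_pos F v _ _) (kt_nrm_pos F v _ _)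

theorem ktOmQ_pos (v : AbsoluteValue K ℝ) {n : ℕ} (x : KTData F n) : 0 < ktOmQ F v x :=
  Finset.prod_pos fun p hp => F.wdg_two_pos v fun h => by
    have h1 : p.1 < p.2 := (Finset.mem_filter.1 hp).2
    exact h1.ne (x.2.2.1 h)

theorem ktSQ_pos (v : AbsoluteValue K ℝ) (N : ℕ) {n : ℕ} (x : KTData F n) : 0 < ktSQ F v N x :=
  Finset.prod_pos fun _ _ => kt_nrm_pos F v _ _

theorem ktW_nonneg (v : AbsoluteValue K ℝ) (N : ℕ) {n : ℕ} (x : KTData F n) : 0 ≤ ktW F v N x :=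
  F.wdg_nonneg v N _

theorem ktW'_nonneg (v : AbsoluteValue K ℝ) (N : ℕ) {n : ℕ} (x : KTData F n) :
    0 ≤ ktW' F v N x :=
  F.wdg_nonneg v N _

/-- the hard half for `Q`. -/
theorem kt_H0 (n N : ℕ) (hN : n * F.n1 + 4 * F.g ≤ N) :
    UBound (α := KTData F n) (fun v x => ktSQ F v N x * ktOmQ F v x)
      (fun v x => ktW F v N x * ktPiQ F v x) :=
  (vdm_hard F n N hN).comp (fun x : KTData F n => x.1.2.1)

theorem ktW_pos (n N : ℕ) (hN : n * F.n1 + 4 * F.g ≤ N) (v : AbsoluteValue K ℝ)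
    (x : KTData F n) : 0 < ktW F v N x := by
  obtain ⟨S, -, H⟩ := kt_H0 F n N hN
  obtain ⟨C, hC, -, hb⟩ := H v
  have h1 := hb x
  have h2 : 0 < ktSQ F v N x * ktOmQ F v x := mul_pos (ktSQ_pos F v N x) (ktOmQ_pos F v x)
  have h3 : 0 < C * (ktW F v N x * ktPiQ F v x) := lt_of_lt_of_le h2 h1
  have h4 : 0 < ktW F v N x * ktPiQ F v x :=
    (pos_iff_pos_of_mul_pos h3).1 (lt_of_lt_of_le zero_lt_one hC)
  exact (pos_iff_pos_of_mul_pos h4).2 (ktPiQ_pos F v x)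

/-- step (1), first half. -/
theorem kt_step1a (hVV : StmtVV F) (n N : ℕ) (hN : n * F.n1 + 4 * F.g ≤ N) :
    UBound (α := KTData F n) (fun v x => ktW' F v N x * ktPq F v x)
      (fun v x => ktW F v N x * F.nrm v N x.1.2.2 * ktPw F v x) := by
  have E1 := (vdm_easy_of_vv F hVV N (n + 1)).comp
    (fun x : KTData F n => (Fin.cons x.1.2.2 x.1.2.1 : Fin (n + 1) → (R →ₐ[K] K)))
  have H0 := kt_ub_mul_right (kt_H0 F n N hN)
    (D := fun v x => F.nrm v N x.1.2.2 * ktPw F v x)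
    (fun v x => mul_nonneg (kt_nrm_pos F v _ _).le (ktPw_pos F v x).le)
  refine UBound.of_mul_right (D := fun v x => ktPiQ F v x) (fun v x => ktPiQ_pos F v x) ?_
  refine (kt_ub_congr E1 (fun v x => ?_) (fun v x => ?_)).trans
    (kt_ub_congr H0 (fun v x => rfl) (fun v x => ?_))
  · rw [kt_vdmA_cons]; ring
  · rw [kt_vdmB_cons]; ring
  · ring

/-- step (1), second half. -/
theorem kt_step1b (hVV : StmtVV F) (n N : ℕ) (hN : (n + 1) * F.n1 + 4 * F.g ≤ N) :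
    UBound (α := KTData F n) (fun v x => ktW F v N x * F.nrm v N x.1.2.2 * ktPw F v x)
      (fun v x => ktW' F v N x * ktPq F v x) := by
  have H1 := (vdm_hard F (n + 1) N hN).comp
    (fun x : KTData F n => (Fin.cons x.1.2.2 x.1.2.1 : Fin (n + 1) → (R →ₐ[K] K)))
  have E0 := kt_ub_mul_right ((vdm_easy_of_vv F hVV N n).comp (fun x : KTData F n => x.1.2.1))
    (D := fun v x => F.nrm v N x.1.2.2 * ktPw F v x)
    (fun v x => mul_nonneg (kt_nrm_pos F v _ _).le (ktPw_pos F v x).le)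
  refine UBound.of_mul_right (D := fun v x => ktPiQ F v x) (fun v x => ktPiQ_pos F v x) ?_
  refine (kt_ub_congr E0 (fun v x => ?_) (fun v x => rfl)).trans
    (kt_ub_congr H1 (fun v x => ?_) (fun v x => ?_))
  · rw [kt_vdmA]; ring
  · rw [kt_vdmB_cons, kt_vdmB]; ring
  · rw [kt_vdmA_cons]; ring

/-- step (2). -/
theorem kt_step2 (n N : ℕ) (hnN : n ≤ N) :
    UBound (α := KTData F n) (fun v x => ktW' F v N x * F.cnrm v x.1.1)
      (fun v x => v (x.1.2.2 x.1.1) * F.nrm v (N - n) x.1.2.2 * ktW F v N x) := by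
  classical
  obtain ⟨S1, hS1, H1⟩ := F.eval_le (N - n)
  obtain ⟨S2, hS2, H2⟩ := F.cnrm_mul_ge N
  refine ⟨S1 ∪ S2, fun a ha => ?_, fun v => ?_⟩
  · rcases Finset.mem_union.1 ha with h | h
    exacts [hS1 a h, hS2 a h]
  obtain ⟨C1, h1, hn1, hb1⟩ := H1 v
  obtain ⟨C2, h2, hn2, hb2⟩ := H2 v
  refine ⟨C1 * C2, one_le_mul_of_one_le_of_one_le h1 h2, fun hv hS => ?_, fun x => ?_⟩
  · rw [hn1 hv fun a ha => hS a (Finset.mem_union_left _ ha),
      hn2 hv fun a ha => hS a (Finset.mem_union_right _ ha), one_mul]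
  have hC1 : 0 ≤ C1 := zero_le_one.trans h1
  have hC2 : 0 ≤ C2 := zero_le_one.trans h2
  have hf0 := kt_f_ne_zero F x
  have hW0 := ktW_nonneg F v N x
  obtain ⟨⟨f, Q, P⟩, hdeg, hinj, hQ, hdiv, hP⟩ := x
  dsimp only at hdeg hinj hQ hdiv hP hf0 ⊢
  obtain ⟨I, hI, hIeq⟩ := Finset.exists_mem_eq_sup' (F.idxFam_nonempty N (n + 1))
    (fun J => v (F.mat (fun a => ⇑((Fin.cons P Q : Fin (n + 1) → (R →ₐ[K] K)) a)) J).det)
  obtain ⟨g, hgN, hgQ, hgP, hgc⟩ := sup_char_ge F N n P Q I hI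
  obtain ⟨h, rfl⟩ := hdiv g hgQ
  have hW' : ktW' F v N ⟨⟨f, Q, P⟩, hdeg, hinj, hQ, hdiv, hP⟩ = v (P (f * h)) := by
    rw [hgP]; exact hIeq
  have hpN := (kt_nrm_pos F v (N - n) P).le
  rw [hW']
  by_cases hh : h = 0
  · subst hh
    rw [mul_zero, map_zero, map_zero, zero_mul]
    exact mul_nonneg (mul_nonneg hC1 hC2) (mul_nonneg (mul_nonneg (v.nonneg _) hpN) hW0)
  · have hdegh : F.deg h ≤ N - n := by
      have e1 := F.deg_mul hf0 hh
      have e2 := F.mem_le_iff_deg.1 hgN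
      omega
    have hhmem : h ∈ F.le (N - n) := F.mem_le_iff_deg.2 hdegh
    have hhN : h ∈ F.le N := F.le_mono (Nat.sub_le N n) hhmem
    have hfN : f ∈ F.le N := F.mem_le_iff_deg.2 (by omega)
    have e1 : v (P h) ≤ C1 * (F.cnrm v h * F.nrm v (N - n) P) := hb1 (⟨h, hhmem⟩, P)
    have e2 : F.cnrm v f * F.cnrm v h ≤ C2 * F.cnrm v (f * h) := hb2 ⟨(f, h), hfN, hhN⟩
    have e3 : F.cnrm v (f * h) ≤ ktW F v N ⟨⟨f, Q, P⟩, hdeg, hinj, hQ, hdiv, hP⟩ := hgc v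
    have hcf := F.cnrm_nonneg v f
    calc v (P (f * h)) * F.cnrm v f = v (P f) * v (P h) * F.cnrm v f := by
          rw [map_mul, map_mul]
      _ ≤ v (P f) * (C1 * (F.cnrm v h * F.nrm v (N - n) P)) * F.cnrm v f :=
          mul_le_mul_of_nonneg_right (mul_le_mul_of_nonneg_left e1 (v.nonneg _)) hcf
      _ = C1 * v (P f) * F.nrm v (N - n) P * (F.cnrm v f * F.cnrm v h) := by ring
      _ ≤ C1 * v (P f) * F.nrm v (N - n) P *
            (C2 * ktW F v N ⟨⟨f, Q, P⟩, hdeg, hinj, hQ, hdiv, hP⟩) :=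
          mul_le_mul_of_nonneg_left (e2.trans (mul_le_mul_of_nonneg_left e3 hC2))
            (mul_nonneg (mul_nonneg hC1 (v.nonneg _)) hpN)
      _ = _ := by ring

/-- step (3). -/
theorem kt_step3 (n N : ℕ) (hnN : n ≤ N) :
    UBound (α := KTData F n)
      (fun v x => v (x.1.2.2 x.1.1) * F.nrm v (N - n) x.1.2.2 * ktW F v N x)
      (fun v x => F.cnrm v x.1.1 * ktW' F v N x) := by
  classical
  obtain ⟨S1, hS1, H1⟩ := sup_char_le F N n
  obtain ⟨S2, hS2, H2⟩ := F.cnrm_mul_le N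
  refine ⟨S1 ∪ S2, fun a ha => ?_, fun v => ?_⟩
  · rcases Finset.mem_union.1 ha with h | h
    exacts [hS1 a h, hS2 a h]
  obtain ⟨C1, h1, hn1, hb1⟩ := H1 v
  obtain ⟨C2, h2, hn2, hb2⟩ := H2 v
  refine ⟨C1 * C2, one_le_mul_of_one_le_of_one_le h1 h2, fun hv hS => ?_, fun x => ?_⟩
  · rw [hn1 hv fun a ha => hS a (Finset.mem_union_left _ ha),
      hn2 hv fun a ha => hS a (Finset.mem_union_right _ ha), one_mul]
  have hC1 : 0 ≤ C1 := zero_le_one.trans h1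
  have hC2 : 0 ≤ C2 := zero_le_one.trans h2
  have hW0 := ktW'_nonneg F v N x
  obtain ⟨⟨f, Q, P⟩, hdeg, hinj, hQ, hdiv, hP⟩ := x
  dsimp only at hdeg hinj hQ hdiv hP ⊢
  obtain ⟨i, hi, hieq⟩ := Finset.exists_mem_eq_sup' (F.idx_nonempty (N - n))
    (fun i => v (P (F.e i)))
  have hfn : f ∈ F.le n := F.mem_le_iff_deg.2 hdeg.le
  have hfN : f ∈ F.le N := F.le_mono hnN hfn
  have hei : F.e i ∈ F.le (N - n) := F.e_mem_le (F.mem_idx.1 hi)
  have heN : F.e i ∈ F.le N := F.le_mono (Nat.sub_le N n) hei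
  have hfe : f * F.e i ∈ F.le N := by
    have := F.mul_mem_le hfn hei
    rwa [Nat.add_sub_cancel' hnN] at this
  have e1 : v (P (f * F.e i)) * ktW F v N ⟨⟨f, Q, P⟩, hdeg, hinj, hQ, hdiv, hP⟩
      ≤ C1 * (F.cnrm v (f * F.e i) * ktW' F v N ⟨⟨f, Q, P⟩, hdeg, hinj, hQ, hdiv, hP⟩) :=
    hb1 ⟨(f * F.e i, P, Q), hfe, fun k => by
      show Q k (f * F.e i) = 0
      rw [map_mul, hQ k, zero_mul]⟩
  have e2 : F.cnrm v (f * F.e i) ≤ C2 * (F.cnrm v f * F.cnrm v (F.e i)) :=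
    hb2 ⟨(f, F.e i), hfN, heN⟩
  have e3 := vh_cnrm_e_le F v i
  have hcf := F.cnrm_nonneg v f
  have hnrm : F.nrm v (N - n) P = v (P (F.e i)) := hieq
  calc v (P f) * F.nrm v (N - n) P * ktW F v N ⟨⟨f, Q, P⟩, hdeg, hinj, hQ, hdiv, hP⟩
      = v (P (f * F.e i)) * ktW F v N ⟨⟨f, Q, P⟩, hdeg, hinj, hQ, hdiv, hP⟩ := by
        rw [map_mul, map_mul, hnrm]
    _ ≤ C1 * (F.cnrm v (f * F.e i) * ktW' F v N ⟨⟨f, Q, P⟩, hdeg, hinj, hQ, hdiv, hP⟩) := e1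
    _ ≤ C1 * ((C2 * (F.cnrm v f * 1)) * ktW' F v N ⟨⟨f, Q, P⟩, hdeg, hinj, hQ, hdiv, hP⟩) := by
        refine mul_le_mul_of_nonneg_left (mul_le_mul_of_nonneg_right (e2.trans ?_) hW0) hC1
        exact mul_le_mul_of_nonneg_left (mul_le_mul_of_nonneg_left e3 hcf) hC2
    _ = _ := by ring

theorem kt_le (hVV : StmtVV F) (n : ℕ) (hn : 4 * F.g ≤ n) :
    UBound (fun v (x : KTData F n) => ktX F v x) (fun v x => ktY F v x) := by
  set N : ℕ := (n + 1) * F.n1 + 4 * F.g + n with hNdef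
  have hN1 : (n + 1) * F.n1 + 4 * F.g ≤ N := by omega
  have hN0 : n * F.n1 + 4 * F.g ≤ N := by
    have : n * F.n1 ≤ (n + 1) * F.n1 := Nat.mul_le_mul_right _ (Nat.le_succ n)
    omega
  have hnN : n ≤ N := by omega
  have h3 := kt_ub_mul_right (kt_step3 F n N hnN) (D := fun v x => ktPq F v x)
    (fun v x => (ktPq_pos F v x).le)
  have h1 := kt_ub_mul_right (kt_step1a F hVV n N hN0) (D := fun v x => F.cnrm v x.1.1)
    (fun v x => F.cnrm_nonneg v _)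
  have h4' : UBound (α := R →ₐ[K] K) (fun v P => F.nrm v N P)
      (fun v P => F.nrm v (N - n) P * F.nrm v n P) := by
    have := F.nrm_add_le (a := N - n) (b := n) (by omega) (by omega)
    rwa [Nat.sub_add_cancel hnN] at this
  have h4 := kt_ub_mul_right (h4'.comp (fun x : KTData F n => x.1.2.2))
    (D := fun v x => F.cnrm v x.1.1 * ktW F v N x * ktPw F v x)
    (fun v x => mul_nonneg (mul_nonneg (F.cnrm_nonneg v _) (ktW_nonneg F v N x))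
      (ktPw_pos F v x).le)
  refine UBound.of_mul_right (D := fun v x => F.nrm v (N - n) x.1.2.2 * ktW F v N x)
    (fun v x => mul_pos (kt_nrm_pos F v _ _) (ktW_pos F n N hN0 v x)) ?_
  refine (kt_ub_congr h3 (fun v x => ?_) (fun v x => ?_)).trans
    ((kt_ub_congr h1 (fun v x => rfl) (fun v x => ?_)).trans
      (kt_ub_congr h4 (fun v x => rfl) (fun v x => ?_)))
  · show v (x.1.2.2 x.1.1) * ktPq F v x * _ = _
    ring
  · ring
  · ring
  · show _ = F.cnrm v x.1.1 * F.nrm v n x.1.2.2 * ktPw F v x * _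
    ring

theorem kt_ge (hVV : StmtVV F) (n : ℕ) (hn : 4 * F.g ≤ n) :
    UBound (fun v (x : KTData F n) => ktY F v x) (fun v x => ktX F v x) := by
  set N : ℕ := (n + 1) * F.n1 + 4 * F.g + n with hNdef
  have hN1 : (n + 1) * F.n1 + 4 * F.g ≤ N := by omega
  have hN0 : n * F.n1 + 4 * F.g ≤ N := by
    have : n * F.n1 ≤ (n + 1) * F.n1 := Nat.mul_le_mul_right _ (Nat.le_succ n)
    omega
  have hnN : n ≤ N := by omega
  have h2 := kt_ub_mul_right (kt_step2 F n N hnN) (D := fun v x => ktPq F v x)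
    (fun v x => (ktPq_pos F v x).le)
  have h1 := kt_ub_mul_right (kt_step1b F hVV n N hN1) (D := fun v x => F.cnrm v x.1.1)
    (fun v x => F.cnrm_nonneg v _)
  have h4' : UBound (α := R →ₐ[K] K) (fun v P => F.nrm v (N - n) P * F.nrm v n P)
      (fun v P => F.nrm v N P) := by
    have := F.nrm_mul_le (N - n) n
    rwa [Nat.sub_add_cancel hnN] at this
  have h4 := kt_ub_mul_right (h4'.comp (fun x : KTData F n => x.1.2.2))
    (D := fun v x => F.cnrm v x.1.1 * ktW F v N x * ktPw F v x)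
    (fun v x => mul_nonneg (mul_nonneg (F.cnrm_nonneg v _) (ktW_nonneg F v N x))
      (ktPw_pos F v x).le)
  refine UBound.of_mul_right (D := fun v x => F.nrm v (N - n) x.1.2.2 * ktW F v N x)
    (fun v x => mul_pos (kt_nrm_pos F v _ _) (ktW_pos F n N hN0 v x)) ?_
  refine (kt_ub_congr h4 (fun v x => ?_) (fun v x => ?_)).trans
    ((kt_ub_congr h1 (fun v x => rfl) (fun v x => ?_)).trans
      (kt_ub_congr h2 (fun v x => rfl) (fun v x => ?_)))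
  · show F.cnrm v x.1.1 * F.nrm v n x.1.2.2 * ktPw F v x * _ = _
    ring
  · ring
  · ring
  · show _ = v (x.1.2.2 x.1.1) * ktPq F v x * _
    ring

end Fermat.Agent.S17
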