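import Fermat.Agent.S17.Loc.FrameGen
import Fermat.Agent.S17.Loc.UB
import Fermat.Agent.S17.Val.Transfer

/-!
# S17 / LOC leaf `Mult`: Gauss lemma `|f g| ≍ |f| |g|` for the coefficient norm

* `cnrm_mul_le` (trivial direction): the coefficients of `f g` are bilinear in the coefficients of
  `f, g` with the structure constants `e.repr (e i * e j) l`, `i, j ∈ idx n`, `l ∈ idx (2n)`, as
  coefficients.  `S` = the nonzero structure constants.
* `cnrm_mul_ge`: by `transfer_sup` with `Y = {(f,g)}`, `a_(i,j) = (coeff_i f)(coeff_j g)`,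
  `b_l = coeff_l (f g) = ∑_{i,j} c_{ijl} (coeff_i f)(coeff_j g)`.
  Valuative check: `Ω, V ⊇ K, π`; put `α_i = π(coeff_i f)`, `β_j = π(coeff_j g)` in `Ω`.  If all `α_i` or all
  `β_j` vanish it is trivial.  Let `i₀` be the LARGEST index with `v(α_i)` maximal, `j₀` likewise, and
  `l₀` with `wt l₀ = wt i₀ + wt j₀`.  In `π(b_{l₀}) = ∑ c_{ij l₀} α_i β_j` only pairs with
  `wt i + wt j ≥ wt l₀` occur (`mul_le`); the pair `(i₀,j₀)` has `v(c α β) = v(α_{i₀}) v(β_{j₀})`
  (`c ∈ K^×` is a unit of `V`), every other pair has `i > i₀` or `j > j₀`, hence strictly smaller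
  valuation.  So `v(π b_{l₀}) = v(α_{i₀}) v(β_{j₀}) ≥ v(α_i β_j)` for all `i, j`.
-/

set_option autoImplicit false

namespace Fermat.Agent.S17

namespace Frame

variable {K R : Type*} [Field K] [CommRing R] [Algebra K R] (F : Frame K R)

theorem Mult_exists_top {Γ : Type*} [LinearOrder Γ] (s : Finset ℕ) (hs : s.Nonempty) (φ : ℕ → Γ) :
    ∃ i₀ ∈ s, (∀ i ∈ s, φ i ≤ φ i₀) ∧ ∀ i ∈ s, i₀ < i → φ i < φ i₀ := by
  classical
  obtain ⟨m, hm, hmax⟩ := Finset.exists_max_image s φ hs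
  have hTne : (s.filter (fun i => φ i = φ m)).Nonempty := ⟨m, Finset.mem_filter.mpr ⟨hm, rfl⟩⟩
  have h0 := Finset.max'_mem _ hTne
  rw [Finset.mem_filter] at h0
  refine ⟨(s.filter (fun i => φ i = φ m)).max' hTne, h0.1, fun i hi => ?_, fun i hi hlt => ?_⟩
  · rw [h0.2]; exact hmax i hi
  · rw [h0.2]
    refine lt_of_le_of_ne (hmax i hi) fun heq => ?_
    have : i ∈ s.filter (fun i => φ i = φ m) := Finset.mem_filter.mpr ⟨hi, heq⟩
    exact absurd (Finset.le_max' _ i this) (not_le.mpr hlt)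

/-- the valuative Gauss lemma. -/
theorem Mult_key (n : ℕ) {Ω : Type*} [Field Ω] [Algebra K Ω] (V : ValuationSubring Ω)
    (hV : ∀ c : K, algebraMap K Ω c ∈ V) (α β : ℕ → Ω) {i j : ℕ} (hi : i ∈ F.idx n)
    (hj : j ∈ F.idx n) :
    ∃ l ∈ F.idx (n + n), V.valuation (α i * β j) ≤
      V.valuation (∑ p ∈ F.idx n ×ˢ F.idx n,
        algebraMap K Ω (F.e.repr (F.e p.1 * F.e p.2) l) * (α p.1 * β p.2)) := by
  obtain ⟨i₀, hi₀, hi₀max, hi₀lt⟩ :=
    Mult_exists_top (F.idx n) (F.idx_nonempty n) (fun i => V.valuation (α i))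
  obtain ⟨j₀, hj₀, hj₀max, hj₀lt⟩ :=
    Mult_exists_top (F.idx n) (F.idx_nonempty n) (fun j => V.valuation (β j))
  obtain ⟨l₀, hl₀⟩ := F.wt_add i₀ j₀
  have hl₀mem : l₀ ∈ F.idx (n + n) := by
    rw [F.mem_idx] at hi₀ hj₀ ⊢; omega
  refine ⟨l₀, hl₀mem, ?_⟩
  have hle : V.valuation (α i * β j) ≤ V.valuation (α i₀) * V.valuation (β j₀) := by
    rw [map_mul]; exact mul_le_mul' (hi₀max i hi) (hj₀max j hj)
  by_cases hz : V.valuation (α i₀) * V.valuation (β j₀) = 0
  · rw [hz] at hle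
    exact hle.trans zero_le
  refine hle.trans (le_of_eq ?_)
  have hle1 : ∀ c : K, V.valuation (algebraMap K Ω c) ≤ 1 :=
    fun c => (V.valuation_le_one_iff _).mpr (hV c)
  have hunit : ∀ c : K, c ≠ 0 → V.valuation (algebraMap K Ω c) = 1 := by
    intro c hc
    have h1 := hle1 c
    have h2 := hle1 c⁻¹
    have h3 : V.valuation (algebraMap K Ω c) * V.valuation (algebraMap K Ω c⁻¹) = 1 := by
      rw [← map_mul, ← map_mul, mul_inv_cancel₀ hc, map_one, map_one]
    refine le_antisymm h1 ?_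
    calc (1 : _) = V.valuation (algebraMap K Ω c) * V.valuation (algebraMap K Ω c⁻¹) := h3.symm
      _ ≤ V.valuation (algebraMap K Ω c) * 1 := mul_le_mul_right h2 _
      _ = V.valuation (algebraMap K Ω c) := mul_one _
  have hmem : (i₀, j₀) ∈ F.idx n ×ˢ F.idx n := Finset.mk_mem_product hi₀ hj₀
  have hz1 : V.valuation (α i₀) ≠ 0 := left_ne_zero_of_mul hz
  have hz2 : V.valuation (β j₀) ≠ 0 := right_ne_zero_of_mul hz
  rw [← Finset.add_sum_erase _ _ hmem]
  have hmain : V.valuation (algebraMap K Ω (F.e.repr (F.e i₀ * F.e j₀) l₀) * (α i₀ * β j₀)) =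
      V.valuation (α i₀) * V.valuation (β j₀) := by
    rw [map_mul, hunit _ (F.mul_lead i₀ j₀ l₀ hl₀), one_mul, map_mul]
  have hrest : V.valuation (∑ p ∈ (F.idx n ×ˢ F.idx n).erase (i₀, j₀),
      algebraMap K Ω (F.e.repr (F.e p.1 * F.e p.2) l₀) * (α p.1 * β p.2)) <
      V.valuation (α i₀) * V.valuation (β j₀) := by
    apply Valuation.map_sum_lt _ hz
    intro p hp
    rw [Finset.mem_erase, Finset.mem_product] at hp
    obtain ⟨hne, hp1, hp2⟩ := hp
    by_cases hc : F.e.repr (F.e p.1 * F.e p.2) l₀ = 0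
    · rw [hc, map_zero, zero_mul, map_zero]; exact zero_lt_iff.mpr hz
    · have hwt : F.wt l₀ ≤ F.wt p.1 + F.wt p.2 := by
        by_contra hlt
        exact hc (F.mul_le _ _ _ (not_le.mp hlt))
      rw [Valuation.map_mul, Valuation.map_mul]
      refine lt_of_le_of_lt (mul_le_of_le_one_left' (hle1 _)) ?_
      rcases lt_or_ge i₀ p.1 with hlt | hge
      · exact mul_lt_mul_of_lt_of_le_of_nonneg_of_pos (hi₀lt p.1 hp1 hlt) (hj₀max p.2 hp2) zero_le
          (zero_lt_iff.mpr hz2)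
      · have hlt2 : j₀ < p.2 := by
          by_contra hnot
          have hge2 : p.2 ≤ j₀ := not_lt.mp hnot
          have m1 := F.wt_strictMono.monotone hge
          have m2 := F.wt_strictMono.monotone hge2
          have e1 : F.wt p.1 = F.wt i₀ := by omega
          have e2 : F.wt p.2 = F.wt j₀ := by omega
          exact hne (Prod.ext (F.wt_injective e1) (F.wt_injective e2))
        exact mul_lt_mul_of_le_of_lt_of_nonneg_of_pos (hi₀max p.1 hp1) (hj₀lt p.2 hp2 hlt2) zero_le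
          (zero_lt_iff.mpr hz1)
  rw [Valuation.map_add_eq_of_lt_left _ (by rw [hmain]; exact hrest), hmain]

/-- the coefficients of a product. -/
theorem Mult_repr_mul {n : ℕ} {f h : R} (hf : f ∈ F.le n) (hh : h ∈ F.le n) (l : ℕ) :
    F.e.repr (f * h) l = ∑ p ∈ F.idx n ×ˢ F.idx n,
      F.e.repr (F.e p.1 * F.e p.2) l * (F.e.repr f p.1 * F.e.repr h p.2) := by
  conv_lhs => rw [F.eq_sum_idx hf, F.eq_sum_idx hh]
  rw [Finset.sum_mul_sum, ← Finset.sum_product', map_sum, Finsupp.finsetSum_apply]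
  refine Finset.sum_congr rfl fun p _ => ?_
  rw [smul_mul_smul_comm, map_smul, Finsupp.smul_apply, smul_eq_mul, mul_comm]

theorem Mult_sup_mul (s : Finset ℕ) (hs : s.Nonempty) (a b : ℕ → ℝ) (ha : ∀ i, 0 ≤ a i)
    (hb : ∀ i, 0 ≤ b i) :
    s.sup' hs a * s.sup' hs b = (s ×ˢ s).sup' (hs.product hs) (fun p => a p.1 * b p.2) := by
  apply le_antisymm
  · obtain ⟨i₀, hi₀, e1⟩ := Finset.exists_mem_eq_sup' hs a
    obtain ⟨j₀, hj₀, e2⟩ := Finset.exists_mem_eq_sup' hs b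
    rw [e1, e2]
    exact Finset.le_sup' (fun p : ℕ × ℕ => a p.1 * b p.2) (Finset.mk_mem_product hi₀ hj₀)
  · refine Finset.sup'_le _ _ fun p hp => ?_
    rw [Finset.mem_product] at hp
    exact mul_le_mul (Finset.le_sup' a hp.1) (Finset.le_sup' b hp.2) (hb _)
      ((ha p.1).trans (Finset.le_sup' a hp.1))

theorem Mult_cnrm_mul_cnrm (v : AbsoluteValue K ℝ) {n : ℕ} {f h : R} (hf : f ∈ F.le n)
    (hh : h ∈ F.le n) :
    F.cnrm v f * F.cnrm v h = (F.idx n ×ˢ F.idx n).sup'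
      ((F.idx_nonempty n).product (F.idx_nonempty n))
      (fun p => v (F.e.repr f p.1 * F.e.repr h p.2)) := by
  rw [F.cnrm_eq v hf, F.cnrm_eq v hh, Mult_sup_mul _ _ _ _ (fun _ => v.nonneg _)
    (fun _ => v.nonneg _)]
  simp only [map_mul]

theorem cnrm_mul_le (n : ℕ) :
    UBound (α := {p : R × R // p.1 ∈ F.le n ∧ p.2 ∈ F.le n})
      (fun v p => F.cnrm v (p.1.1 * p.1.2)) (fun v p => F.cnrm v p.1.1 * F.cnrm v p.1.2) := by
  have h1 : UBound (α := {p : R × R // p.1 ∈ F.le n ∧ p.2 ∈ F.le n})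
      (fun (v : AbsoluteValue K ℝ) p => (F.idx (n + n)).sup' (F.idx_nonempty _)
        fun l => v (∑ q ∈ F.idx n ×ˢ F.idx n,
          F.e.repr (F.e q.1 * F.e q.2) l * (F.e.repr p.1.1 q.1 * F.e.repr p.1.2 q.2)))
      (fun v p => (F.idx n ×ˢ F.idx n).sup' ((F.idx_nonempty n).product (F.idx_nonempty n))
        (fun q => v (F.e.repr p.1.1 q.1 * F.e.repr p.1.2 q.2))) := by
    refine UBound.sup' _ _ (fun l _ => ?_) (fun v p => ?_)
    swap
    · obtain ⟨q, hq⟩ := (F.idx_nonempty n).product (F.idx_nonempty n)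
      exact (v.nonneg _).trans (Finset.le_sup'
        (fun q => v (F.e.repr p.1.1 q.1 * F.e.repr p.1.2 q.2)) hq)
    exact UBound.linear (F.idx n ×ˢ F.idx n) ((F.idx_nonempty n).product (F.idx_nonempty n))
      (fun q => F.e.repr (F.e q.1 * F.e q.2) l)
      (fun q (p : {p : R × R // p.1 ∈ F.le n ∧ p.2 ∈ F.le n}) =>
        F.e.repr p.1.1 q.1 * F.e.repr p.1.2 q.2)
  refine (UBound.of_le fun v p => le_of_eq ?_).trans (h1.trans (UBound.of_le fun v p => le_of_eq ?_))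
  · rw [F.cnrm_eq v (F.mul_mem_le p.2.1 p.2.2)]
    simp only [F.Mult_repr_mul p.2.1 p.2.2]
  · exact (F.Mult_cnrm_mul_cnrm v p.2.1 p.2.2).symm

theorem cnrm_mul_ge (n : ℕ) :
    UBound (α := {p : R × R // p.1 ∈ F.le n ∧ p.2 ∈ F.le n})
      (fun v p => F.cnrm v p.1.1 * F.cnrm v p.1.2) (fun v p => F.cnrm v (p.1.1 * p.1.2)) := by
  have h1 := transfer_sup (K := K) (Y := {p : R × R // p.1 ∈ F.le n ∧ p.2 ∈ F.le n})
    (F.idx n ×ˢ F.idx n) ((F.idx_nonempty n).product (F.idx_nonempty n))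
    (F.idx (n + n)) (F.idx_nonempty _)
    (fun q p => F.e.repr p.1.1 q.1 * F.e.repr p.1.2 q.2)
    (fun l p => F.e.repr (p.1.1 * p.1.2) l) (by
      intro Ω _ _ π V hV q hq
      rw [Finset.mem_product] at hq
      obtain ⟨l, hl, hle⟩ := F.Mult_key n V hV
        (fun i => π (fun p => F.e.repr p.1.1 i)) (fun j => π (fun p => F.e.repr p.1.2 j)) hq.1 hq.2
      refine ⟨l, hl, ?_⟩
      have e1 : (fun p : {p : R × R // p.1 ∈ F.le n ∧ p.2 ∈ F.le n} =>
          F.e.repr p.1.1 q.1 * F.e.repr p.1.2 q.2) =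
          (fun p => F.e.repr p.1.1 q.1) * (fun p => F.e.repr p.1.2 q.2) := rfl
      have e2 : (fun p : {p : R × R // p.1 ∈ F.le n ∧ p.2 ∈ F.le n} =>
          F.e.repr (p.1.1 * p.1.2) l) =
          ∑ q ∈ F.idx n ×ˢ F.idx n, algebraMap K _ (F.e.repr (F.e q.1 * F.e q.2) l) *
            ((fun p => F.e.repr p.1.1 q.1) * (fun p => F.e.repr p.1.2 q.2)) := by
        funext p
        rw [F.Mult_repr_mul p.2.1 p.2.2, Finset.sum_apply]
        rfl
      rw [e1, e2, map_mul, map_sum]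
      simp only [map_mul, AlgHom.commutes]
      exact hle)
  refine (UBound.of_le fun v p => le_of_eq ?_).trans (h1.trans (UBound.of_le fun v p => le_of_eq ?_))
  · exact F.Mult_cnrm_mul_cnrm v p.2.1 p.2.2
  · exact (F.cnrm_eq v (F.mul_mem_le p.2.1 p.2.2)).symm

theorem Mult_one_mem_le (n : ℕ) : (1 : R) ∈ F.le n := by
  rw [← F.e_zero]
  exact F.e_mem_le (by rw [F.wt_zero]; exact Nat.zero_le n)

theorem Mult_prod_mem_le (n k : ℕ) (p : Fin k → R) (hp : ∀ i, p i ∈ F.le n) :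
    ∏ i, p i ∈ F.le (k * n) := by
  induction k with
  | zero => simpa using F.Mult_one_mem_le (0 * n)
  | succ k ih =>
    rw [Fin.prod_univ_succ]
    have := F.mul_mem_le (hp 0) (ih (fun i => p i.succ) (fun i => hp i.succ))
    have e : (k + 1) * n = n + k * n := by ring
    rwa [e]

theorem Mult_cnrm_one_le (v : AbsoluteValue K ℝ) : F.cnrm v (1 : R) ≤ 1 := by
  rw [F.cnrm_eq v (F.Mult_one_mem_le 0)]
  refine Finset.sup'_le _ _ fun i _ => ?_
  rw [← F.e_zero, Module.Basis.repr_self, Finsupp.single_apply]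
  split_ifs
  · rw [map_one]
  · rw [map_zero]; exact zero_le_one

/-- products of several factors (trivial direction). -/
theorem cnrm_prod_le (n k : ℕ) :
    UBound (α := {p : Fin k → R // ∀ i, p i ∈ F.le n})
      (fun v p => F.cnrm v (∏ i, p.1 i)) (fun v p => ∏ i, F.cnrm v (p.1 i)) := by
  induction k with
  | zero =>
    refine UBound.of_le fun v p => ?_
    simpa using F.Mult_cnrm_one_le v
  | succ k ih =>
    have hm1 : n ≤ (k + 1) * n := Nat.le_mul_of_pos_left n (Nat.succ_pos k)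
    have hm2 : k * n ≤ (k + 1) * n := Nat.mul_le_mul_right n (Nat.le_succ k)
    have h1 := (F.cnrm_mul_le ((k + 1) * n)).comp
      (fun p : {p : Fin (k + 1) → R // ∀ i, p i ∈ F.le n} =>
        (⟨(p.1 0, ∏ i : Fin k, p.1 i.succ), F.le_mono hm1 (p.2 0),
          F.le_mono hm2 (F.Mult_prod_mem_le n k (fun i => p.1 i.succ) (fun i => p.2 i.succ))⟩ :
          {p : R × R // p.1 ∈ F.le ((k + 1) * n) ∧ p.2 ∈ F.le ((k + 1) * n)}))
    have h2 := ih.comp (fun p : {p : Fin (k + 1) → R // ∀ i, p i ∈ F.le n} =>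
      (⟨fun i => p.1 i.succ, fun i => p.2 i.succ⟩ : {p : Fin k → R // ∀ i, p i ∈ F.le n}))
    have h3 := (UBound.refl (fun (v : AbsoluteValue K ℝ)
      (p : {p : Fin (k + 1) → R // ∀ i, p i ∈ F.le n}) => F.cnrm v (p.1 0))).mul h2
      (fun v p => F.cnrm_nonneg v _) (fun v p => F.cnrm_nonneg v _)
    have h4 := h1.trans h3
    simp only [Fin.prod_univ_succ]
    exact h4

end Frame

end Fermat.Agent.S17
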