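import Fermat.Agent.S17.Defs

/-!
# S17 / LOC leaf `FrameBasic`: elementary properties of a `Frame`

`deg` is a weight function: `deg (f g) = deg f + deg g` (leading terms, `mul_le`, `mul_lead`),
so `R` is a domain.  `dim n = n + 1 - g` for `n ≥ 2 g`.
-/

set_option autoImplicit false

namespace Fermat.Agent.S17

namespace Frame

variable {K R : Type*} [Field K] [CommRing R] [Algebra K R] (F : Frame K R)

theorem le_wt (i : ℕ) : i ≤ F.wt i := F.wt_strictMono.le_apply

theorem wt_injective : Function.Injective F.wt := F.wt_strictMono.injective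

theorem mem_le_iff {n : ℕ} {f : R} : f ∈ F.le n ↔ ∀ i, n < F.wt i → F.e.repr f i = 0 := by
  rw [le, Module.Basis.mem_span_image]
  constructor
  · intro h i hi
    by_contra hne
    have h1 : i ∈ (↑(F.e.repr f).support : Set ℕ) := Finsupp.mem_support_iff.2 hne
    have h2 : F.wt i ≤ n := h h1
    omega
  · intro h i hi
    have h1 : F.e.repr f i ≠ 0 := Finsupp.mem_support_iff.1 hi
    show F.wt i ≤ n
    by_contra hlt
    exact h1 (h i (not_le.1 hlt))

theorem mem_le_iff_deg {n : ℕ} {f : R} : f ∈ F.le n ↔ F.deg f ≤ n := by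
  rw [mem_le_iff, deg, Finset.sup_le_iff]
  constructor
  · intro h i hi
    by_contra hlt
    exact (Finsupp.mem_support_iff.1 hi) (h i (not_le.1 hlt))
  · intro h i hi
    by_contra hne
    have := h i (Finsupp.mem_support_iff.2 hne)
    omega

theorem e_mem_le {n i : ℕ} (h : F.wt i ≤ n) : F.e i ∈ F.le n := by
  exact Submodule.subset_span ⟨i, h, rfl⟩

theorem deg_e (i : ℕ) : F.deg (F.e i) = F.wt i := by
  rw [deg, Module.Basis.repr_self, Finsupp.support_single _ one_ne_zero,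
    Finset.sup_singleton]

theorem le_mono {a b : ℕ} (h : a ≤ b) : F.le a ≤ F.le b := by
  exact Submodule.span_mono (Set.image_mono fun i (hi : F.wt i ≤ a) => le_trans hi h)

theorem eq_sum_idx {n : ℕ} {f : R} (h : f ∈ F.le n) : f = ∑ i ∈ F.idx n, F.e.repr f i • F.e i := by
  conv_lhs => rw [← F.e.linearCombination_repr f]
  rw [Finsupp.linearCombination_apply, Finsupp.sum]
  apply Finset.sum_subset
  · intro i hi
    rw [mem_idx]
    by_contra hlt
    exact (Finsupp.mem_support_iff.1 hi) (F.mem_le_iff.1 h i (not_le.1 hlt))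
  · intro i _ hi
    rw [Finsupp.notMem_support_iff.1 hi, zero_smul]

/-- for `f ≠ 0` there is a (unique) top index. -/
theorem exists_top {f : R} (hf : f ≠ 0) :
    ∃ i, F.wt i = F.deg f ∧ F.e.repr f i ≠ 0 ∧ ∀ j, i < j → F.e.repr f j = 0 := by
  have hne : (F.e.repr f).support.Nonempty := by
    rw [Finsupp.support_nonempty_iff]
    intro h0
    exact hf (F.e.repr.map_eq_zero_iff.1 h0)
  obtain ⟨i, hi, hsup⟩ := Finset.exists_mem_eq_sup _ hne F.wt
  refine ⟨i, hsup.symm, Finsupp.mem_support_iff.1 hi, fun j hij => ?_⟩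
  by_contra hj
  have h1 : F.wt j ≤ (F.e.repr f).support.sup F.wt :=
    Finset.le_sup (f := F.wt) (Finsupp.mem_support_iff.2 hj)
  have h2 := F.wt_strictMono hij
  omega

theorem mul_mem_le {a b : ℕ} {f h : R} (hf : f ∈ F.le a) (hh : h ∈ F.le b) :
    f * h ∈ F.le (a + b) := by
  have hle : F.le a * F.le b ≤ F.le (a + b) := by
    rw [le, le, Submodule.span_mul_span, Submodule.span_le]
    rintro _ ⟨_, ⟨i, hi, rfl⟩, _, ⟨j, hj, rfl⟩, rfl⟩
    have hi' : F.wt i ≤ a := hi
    have hj' : F.wt j ≤ b := hj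
    show F.e i * F.e j ∈ F.le (a + b)
    rw [mem_le_iff]
    intro l hl
    exact F.mul_le i j l (by omega)
  exact hle (Submodule.mul_mem_mul hf hh)

/-- `x` has no coefficient of index `≥ i`. -/
theorem FrameBasic_low_mul {i b l : ℕ} {x y : R} (hx : ∀ j, i ≤ j → F.e.repr x j = 0)
    (hy : y ∈ F.le b) (hl : F.wt i + b ≤ F.wt l) : F.e.repr (x * y) l = 0 := by
  cases i with
  | zero =>
    have hx0 : x = 0 := by
      apply F.e.repr.map_eq_zero_iff.1
      ext j
      exact hx j (Nat.zero_le j)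
    rw [hx0, zero_mul, map_zero, Finsupp.zero_apply]
  | succ i₀ =>
    have hxle : x ∈ F.le (F.wt i₀) := by
      rw [mem_le_iff]
      intro j hj
      exact hx j (F.wt_strictMono.lt_iff_lt.1 hj)
    have h1 := F.wt_strictMono (Nat.lt_add_one i₀)
    exact F.mem_le_iff.1 (F.mul_mem_le hxle hy) l (by omega)

/-- removing the leading term. -/
theorem FrameBasic_low_sub {i : ℕ} {f : R} (hi : ∀ j, i < j → F.e.repr f j = 0) :
    ∀ j, i ≤ j → F.e.repr (f - F.e.repr f i • F.e i) j = 0 := by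
  intro j hj
  rw [map_sub, map_smul, Module.Basis.repr_self, Finsupp.sub_apply, Finsupp.smul_apply,
    smul_eq_mul]
  rcases Nat.eq_or_lt_of_le hj with rfl | hlt
  · rw [Finsupp.single_eq_same, mul_one, sub_self]
  · rw [Finsupp.single_eq_of_ne (Nat.ne_of_gt hlt), mul_zero, sub_zero, hi j hlt]

/-- the leading coefficient of a product does not vanish. -/
theorem FrameBasic_exists_lead {f h : R} (hf : f ≠ 0) (hh : h ≠ 0) :
    ∃ l, F.wt l = F.deg f + F.deg h ∧ F.e.repr (f * h) l ≠ 0 := by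
  obtain ⟨i, hi, hai, hitop⟩ := F.exists_top hf
  obtain ⟨j, hj, hbj, hjtop⟩ := F.exists_top hh
  obtain ⟨l, hl⟩ := F.wt_add i j
  refine ⟨l, by rw [hl, hi, hj], ?_⟩
  set a := F.e.repr f i with ha
  set b := F.e.repr h j with hb
  have hdec : f * h = (a * b) • (F.e i * F.e j) + a • ((h - b • F.e j) * F.e i)
      + (f - a • F.e i) * h := by
    simp only [Algebra.smul_def, map_mul]
    ring
  have h1 : F.e.repr ((h - b • F.e j) * F.e i) l = 0 :=
    F.FrameBasic_low_mul (F.FrameBasic_low_sub hjtop) (F.e_mem_le le_rfl) (by omega)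
  have h2 : F.e.repr ((f - a • F.e i) * h) l = 0 :=
    F.FrameBasic_low_mul (F.FrameBasic_low_sub hitop) (F.mem_le_iff_deg.2 le_rfl) (by omega)
  rw [hdec, map_add, map_add, map_smul, map_smul, Finsupp.add_apply, Finsupp.add_apply,
    Finsupp.smul_apply, Finsupp.smul_apply, h1, h2, smul_zero, add_zero, add_zero, smul_eq_mul]
  exact mul_ne_zero (mul_ne_zero hai hbj) (F.mul_lead i j l hl)

theorem deg_mul {f h : R} (hf : f ≠ 0) (hh : h ≠ 0) : F.deg (f * h) = F.deg f + F.deg h := by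
  obtain ⟨l, hl, hne⟩ := F.FrameBasic_exists_lead hf hh
  apply le_antisymm
  · exact F.mem_le_iff_deg.1
      (F.mul_mem_le (F.mem_le_iff_deg.2 le_rfl) (F.mem_le_iff_deg.2 le_rfl))
  · rw [← hl]
    exact Finset.le_sup (f := F.wt) (Finsupp.mem_support_iff.2 hne)

include F in
theorem mul_ne_zero' {f h : R} (hf : f ≠ 0) (hh : h ≠ 0) : f * h ≠ 0 := by
  obtain ⟨l, -, hne⟩ := F.FrameBasic_exists_lead hf hh
  intro h0
  rw [h0, map_zero, Finsupp.zero_apply] at hne
  exact hne rfl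

include F in
theorem isDomain : IsDomain R := by
  have h10 : (1 : R) ≠ 0 := by
    rw [← F.e_zero]
    exact F.e.ne_zero 0
  have : Nontrivial R := nontrivial_of_ne 1 0 h10
  have : NoZeroDivisors R := ⟨fun {a b} hab => by
    by_contra hcon
    push Not at hcon
    exact F.mul_ne_zero' hcon.1 hcon.2 hab⟩
  exact NoZeroDivisors.to_isDomain R

theorem deg_add_le (f h : R) : F.deg (f + h) ≤ max (F.deg f) (F.deg h) := by
  rw [← mem_le_iff_deg]
  exact Submodule.add_mem _ (F.mem_le_iff_deg.2 (le_max_left _ _))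
    (F.mem_le_iff_deg.2 (le_max_right _ _))

theorem deg_smul {c : K} (hc : c ≠ 0) (f : R) : F.deg (c • f) = F.deg f := by
  rw [deg, deg, map_smul, Finsupp.support_smul_eq hc]

theorem deg_eq_zero_iff {f : R} : F.deg f = 0 ↔ ∃ c : K, f = algebraMap K R c := by
  constructor
  · intro h0
    have hmem : f ∈ F.le 0 := F.mem_le_iff_deg.2 h0.le
    have hidx : F.idx 0 = {0} := by
      ext i
      rw [mem_idx, Finset.mem_singleton]
      constructor
      · intro hi
        have := F.le_wt i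
        omega
      · rintro rfl
        rw [F.wt_zero]
    refine ⟨F.e.repr f 0, ?_⟩
    have h1 := F.eq_sum_idx hmem
    rw [hidx, Finset.sum_singleton, F.e_zero] at h1
    rw [Algebra.algebraMap_eq_smul_one]
    exact h1
  · rintro ⟨c, rfl⟩
    have hmem : algebraMap K R c ∈ F.le 0 := by
      rw [Algebra.algebraMap_eq_smul_one, ← F.e_zero]
      exact Submodule.smul_mem _ _ (F.e_mem_le (by rw [F.wt_zero]))
    exact Nat.le_zero.1 (F.mem_le_iff_deg.1 hmem)

theorem dim_eq {n : ℕ} (h : 2 * F.g ≤ n) : F.dim n = n + 1 - F.g := by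
  have h1 : n - F.g < F.dim n := by
    rw [F.lt_dim_iff, F.wt_large _ (by omega)]
    omega
  have h2 : ¬ (n - F.g + 1 < F.dim n) := by
    rw [F.lt_dim_iff, F.wt_large _ (by omega)]
    omega
  omega

theorem exists_wt_eq {n : ℕ} (h : 2 * F.g ≤ n) : ∃ i, F.wt i = n := by
  refine ⟨n - F.g, ?_⟩
  rw [F.wt_large _ (by omega)]
  omega

theorem finrank_le (n : ℕ) : Module.finrank K (F.le n) = F.dim n := by
  have hli : LinearIndependent K (fun i : Fin (F.dim n) => F.e (i : ℕ)) :=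
    F.e.linearIndependent.comp _ Fin.val_injective
  have hrange : Set.range (fun i : Fin (F.dim n) => F.e (i : ℕ)) = F.e '' {i | F.wt i ≤ n} := by
    ext x
    constructor
    · rintro ⟨i, rfl⟩
      exact ⟨i, F.lt_dim_iff.mp i.2, rfl⟩
    · rintro ⟨i, hi, rfl⟩
      exact ⟨⟨i, F.lt_dim_iff.mpr hi⟩, rfl⟩
  have h := finrank_span_eq_card hli
  rw [hrange, Fintype.card_fin] at h
  exact h

/-- `cnrm` can be computed at any level containing `f`. -/
theorem cnrm_eq (φ : AbsoluteValue K ℝ) {n : ℕ} {f : R} (h : f ∈ F.le n) :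
    F.cnrm φ f = (F.idx n).sup' (F.idx_nonempty n) fun i => φ (F.e.repr f i) := by
  have hdeg : F.deg f ≤ n := F.mem_le_iff_deg.mp h
  have hsub : F.idx (F.deg f) ⊆ F.idx n := fun i hi =>
    F.mem_idx.mpr ((F.mem_idx.mp hi).trans hdeg)
  unfold cnrm
  apply le_antisymm
  · exact Finset.sup'_mono _ hsub _
  · refine Finset.sup'_le _ _ fun i _ => ?_
    by_cases hi : F.wt i ≤ F.deg f
    · exact Finset.le_sup' (fun i => φ (F.e.repr f i)) (F.mem_idx.mpr hi)
    · have h0 : F.e.repr f i = 0 :=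
        F.mem_le_iff.mp (F.mem_le_iff_deg.mpr le_rfl) i (not_le.mp hi)
      rw [h0, map_zero]
      have h00 : (0 : ℕ) ∈ F.idx (F.deg f) := F.mem_idx.mpr (by rw [F.wt_zero]; exact Nat.zero_le _)
      exact (φ.nonneg _).trans (Finset.le_sup' (fun i => φ (F.e.repr f i)) h00)

theorem cnrm_pos (φ : AbsoluteValue K ℝ) {f : R} (hf : f ≠ 0) : 0 < F.cnrm φ f := by
  obtain ⟨i, hi, hne, -⟩ := F.exists_top hf
  exact lt_of_lt_of_le (φ.pos hne)
    (Finset.le_sup' (fun i => φ (F.e.repr f i)) (F.mem_idx.mpr hi.le))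

theorem cnrm_nonneg (φ : AbsoluteValue K ℝ) (f : R) : 0 ≤ F.cnrm φ f := by
  have h00 : (0 : ℕ) ∈ F.idx (F.deg f) := F.mem_idx.mpr (by rw [F.wt_zero]; exact Nat.zero_le _)
  exact (φ.nonneg _).trans (Finset.le_sup' (fun i => φ (F.e.repr f i)) h00)

theorem cnrm_smul (φ : AbsoluteValue K ℝ) (c : K) (f : R) :
    F.cnrm φ (c • f) = φ c * F.cnrm φ f := by
  have hf : f ∈ F.le (F.deg f) := F.mem_le_iff_deg.mpr le_rfl
  rw [F.cnrm_eq φ ((F.le (F.deg f)).smul_mem c hf), F.cnrm_eq φ hf,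
    Finset.apply_sup'_eq_sup'_comp (F.idx_nonempty _) (fun x : ℝ => φ c * x)
      (fun x y => mul_max_of_nonneg x y (φ.nonneg c))]
  refine Finset.sup'_congr _ rfl fun i _ => ?_
  simp only [Function.comp, map_smul, Finsupp.smul_apply, smul_eq_mul, map_mul]

theorem one_le_nrm (φ : AbsoluteValue K ℝ) (n : ℕ) (P : R →ₐ[K] K) : 1 ≤ F.nrm φ n P := by
  have h00 : (0 : ℕ) ∈ F.idx n := F.mem_idx.mpr (by rw [F.wt_zero]; exact Nat.zero_le _)
  have h1 : φ (P (F.e 0)) = 1 := by rw [F.e_zero, map_one, map_one]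
  rw [← h1]
  exact Finset.le_sup' (fun i => φ (P (F.e i))) h00

theorem nrm_mono (φ : AbsoluteValue K ℝ) {a b : ℕ} (h : a ≤ b) (P : R →ₐ[K] K) :
    F.nrm φ a P ≤ F.nrm φ b P :=
  Finset.sup'_mono _ (fun _ hi => F.mem_idx.mpr ((F.mem_idx.mp hi).trans h)) _

theorem wdg_nonneg (φ : AbsoluteValue K ℝ) (n : ℕ) {d : ℕ} (P : Fin d → R → K) :
    0 ≤ F.wdg φ n P := by
  obtain ⟨J, hJ⟩ := F.idxFam_nonempty n d
  exact (φ.nonneg _).trans (Finset.le_sup' (fun J => φ (F.mat P J).det) hJ)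

end Frame

end Fermat.Agent.S17
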