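import Fermat.Agent.S17.Loc.FrameBasic

/-!
# S17 / LOC leaf `SepPoly`: every `r : R` is separably algebraic over `K(e 1)` (char. 0)

Proof of `Frame.exists_sep_poly` (stated in `Loc/FrameGen.lean`).
-/

set_option autoImplicit false

namespace Fermat.Agent.S17

namespace Frame

variable {K R : Type*} [Field K] [CommRing R] [Algebra K R] (F : Frame K R)

open Polynomial

theorem SepPoly_wt_one_pos : 0 < F.wt 1 := by
  have h := F.wt_strictMono (show (0 : ℕ) < 1 by norm_num)
  rwa [F.wt_zero] at h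

theorem SepPoly_one_mem_le : (1 : R) ∈ F.le 0 := by
  rw [← F.e_zero]
  exact F.e_mem_le (by rw [F.wt_zero])

theorem SepPoly_pow_mem_le {a : ℕ} {f : R} (hf : f ∈ F.le a) (t : ℕ) : f ^ t ∈ F.le (t * a) := by
  induction t with
  | zero => simpa using F.SepPoly_one_mem_le
  | succ t ih =>
    rw [pow_succ, Nat.succ_mul]
    exact F.mul_mem_le ih hf

theorem SepPoly_deg_one : F.deg 1 = 0 := by
  rw [← F.e_zero, F.deg_e, F.wt_zero]

theorem SepPoly_deg_pow {f : R} (hf : f ≠ 0) (s : ℕ) : F.deg (f ^ s) = s * F.deg f := by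
  have := F.isDomain
  induction s with
  | zero => simp [SepPoly_deg_one]
  | succ s ih =>
    rw [pow_succ, F.deg_mul (pow_ne_zero _ hf) hf, ih]
    ring

/-- `e 1` is transcendental over `K`. -/
theorem SepPoly_aeval_ne_zero {g : K[X]} (hg : g ≠ 0) : aeval (F.e 1) g ≠ 0 := by
  have := F.isDomain
  have hx : F.e 1 ≠ 0 := F.e.ne_zero 1
  have hw := F.SepPoly_wt_one_pos
  intro h0
  have ha : g.coeff g.natDegree ≠ 0 := by
    rw [coeff_natDegree]
    exact leadingCoeff_ne_zero.2 hg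
  rw [aeval_eq_sum_range, Finset.sum_range_succ] at h0
  rcases Nat.eq_zero_or_pos g.natDegree with hN | hN
  · rw [hN] at h0 ha
    simp only [Finset.range_zero, Finset.sum_empty, pow_zero, zero_add] at h0
    exact (smul_ne_zero ha one_ne_zero) h0
  · have h1 : ∑ i ∈ Finset.range g.natDegree, g.coeff i • F.e 1 ^ i ∈
        F.le ((g.natDegree - 1) * F.wt 1) := by
      refine Submodule.sum_mem _ fun i hi => Submodule.smul_mem _ _ ?_
      refine F.le_mono ?_ (F.SepPoly_pow_mem_le (F.e_mem_le le_rfl) i)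
      exact Nat.mul_le_mul_right _ (Nat.le_sub_one_of_lt (Finset.mem_range.1 hi))
    have h2 : g.coeff g.natDegree • F.e 1 ^ g.natDegree ∈ F.le ((g.natDegree - 1) * F.wt 1) := by
      rw [eq_neg_of_add_eq_zero_right h0]
      exact Submodule.neg_mem _ h1
    rw [F.mem_le_iff_deg, F.deg_smul ha, F.SepPoly_deg_pow hx, F.deg_e] at h2
    have h3 : g.natDegree ≤ g.natDegree - 1 := Nat.le_of_mul_le_mul_right h2 hw
    omega

theorem SepPoly_dim_le (n : ℕ) : F.dim n ≤ n + 1 := by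
  by_contra h
  push Not at h
  have h1 := F.lt_dim_iff.1 h
  have h2 := F.le_wt (n + 1)
  omega

/-- `e 1` and `r` are algebraically dependent. -/
theorem SepPoly_exists_rel (r : R) :
    ∃ G : K[X][X], G ≠ 0 ∧ G.eval₂ (aeval (F.e 1)).toRingHom r = 0 := by
  have hw := F.SepPoly_wt_one_pos
  obtain ⟨w, hwdef⟩ : ∃ w, w = F.wt 1 := ⟨_, rfl⟩
  obtain ⟨d, hddef⟩ : ∃ d, d = F.deg r := ⟨_, rfl⟩
  obtain ⟨A, hA⟩ : ∃ A, A = w * d := ⟨_, rfl⟩
  obtain ⟨n, hn⟩ : ∃ n, n = A * w + w * d := ⟨_, rfl⟩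
  rw [← hwdef] at hw
  have hx : F.e 1 ∈ F.le w := F.e_mem_le hwdef.ge
  have hr : r ∈ F.le d := F.mem_le_iff_deg.2 hddef.ge
  let v : Fin (A + 1) × Fin (w + 1) → F.le n := fun i =>
    ⟨F.e 1 ^ (i.1 : ℕ) * r ^ (i.2 : ℕ), by
      refine F.le_mono ?_ (F.mul_mem_le (F.SepPoly_pow_mem_le hx i.1) (F.SepPoly_pow_mem_le hr i.2))
      have h1 : (i.1 : ℕ) ≤ A := Nat.lt_succ_iff.1 i.1.2
      have h2 : (i.2 : ℕ) ≤ w := Nat.lt_succ_iff.1 i.2.2
      rw [hn]
      exact Nat.add_le_add (Nat.mul_le_mul_right _ h1) (Nat.mul_le_mul_right _ h2)⟩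
  have hfin : Module.Finite K (F.le n) :=
    Module.finite_of_finrank_pos (by rw [F.finrank_le]; exact F.dim_pos n)
  have hnot : ¬ LinearIndependent K v := by
    intro hli
    have h1 := hli.fintype_card_le_finrank
    rw [F.finrank_le, Fintype.card_prod, Fintype.card_fin, Fintype.card_fin] at h1
    have h2 : (A + 1) * (w + 1) ≤ A * w + w * d + 1 := by
      rw [← hn]
      exact le_trans h1 (F.SepPoly_dim_le n)
    rw [← hA] at h2
    nlinarith
  obtain ⟨c, hc, i₀, hi₀⟩ := Fintype.not_linearIndependent_iff.1 hnot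
  refine ⟨∑ i, C (monomial (i.1 : ℕ) (c i)) * X ^ (i.2 : ℕ), ?_, ?_⟩
  · intro h0
    have h1 := congrArg (fun G : K[X][X] => (G.coeff (i₀.2 : ℕ)).coeff (i₀.1 : ℕ)) h0
    simp only [finsetSum_coeff, coeff_C_mul, coeff_X_pow, coeff_zero] at h1
    rw [Finset.sum_eq_single i₀] at h1
    · simp at h1
      exact hi₀ h1
    · intro i _ hi
      by_cases h2 : (i₀.2 : ℕ) = (i.2 : ℕ)
      · have h3 : (i.1 : ℕ) ≠ (i₀.1 : ℕ) := by
          intro h3
          exact hi (Prod.ext (Fin.ext h3) (Fin.ext h2.symm))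
        simp [h2, coeff_monomial, h3]
      · simp [h2]
    · intro h
      exact absurd (Finset.mem_univ _) h
  · have h1 := congrArg Subtype.val hc
    rw [eval₂_finsetSum]
    simp only [Submodule.coe_sum, Submodule.coe_smul, ZeroMemClass.coe_zero, v] at h1
    rw [← h1]
    refine Finset.sum_congr rfl fun i _ => ?_
    rw [eval₂_mul, eval₂_C, eval₂_pow, eval₂_X]
    simp only [AlgHom.toRingHom_eq_coe, RingHom.coe_coe, aeval_monomial]
    rw [Algebra.smul_def, mul_assoc]

theorem SepPoly_aux [CharZero K] (r : R) (n : ℕ) :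
    ∀ G : K[X][X], G.natDegree = n → G ≠ 0 → G.eval₂ (aeval (F.e 1)).toRingHom r = 0 →
    ∃ G : K[X][X], G.eval₂ (aeval (F.e 1)).toRingHom r = 0 ∧
      (derivative G).eval₂ (aeval (F.e 1)).toRingHom r ≠ 0 := by
  induction n using Nat.strong_induction_on with
  | _ n ih =>
    intro G hn hG h0
    by_cases hd : (derivative G).eval₂ (aeval (F.e 1)).toRingHom r = 0
    · have hn0 : G.natDegree ≠ 0 := by
        intro h
        rw [eq_C_of_natDegree_eq_zero h, eval₂_C] at h0
        refine F.SepPoly_aeval_ne_zero (g := G.coeff 0) ?_ h0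
        intro h1
        apply hG
        rw [eq_C_of_natDegree_eq_zero h, h1, C_0]
      have hd0 : derivative G ≠ 0 := by
        intro h
        exact hn0 (derivative_eq_zero.1 h)
      exact ih _ (hn ▸ natDegree_derivative_lt hn0) _ rfl hd0 hd
    · exact ⟨G, h0, hd⟩

theorem SepPoly_main [CharZero K] (r : R) :
    ∃ G : Polynomial (Polynomial K),
      (G.map (aeval (F.e 1)).toRingHom).eval r = 0 ∧
      ((derivative G).map (aeval (F.e 1)).toRingHom).eval r ≠ 0 := by
  obtain ⟨G, hG, h0⟩ := F.SepPoly_exists_rel r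
  obtain ⟨G', h1, h2⟩ := F.SepPoly_aux r _ G rfl hG h0
  exact ⟨G', by rwa [eval_map], by rwa [eval_map]⟩

end Frame

end Fermat.Agent.S17
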