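import Fermat.Agent.S17.Loc.FrameBasic
import Fermat.Agent.S17.Loc.SepPoly

/-!
# S17 / LOC leaf `FrameGen`: generation properties of a `Frame`

* `le_mul_le` : `L(a∞) L(b∞) = L((a+b)∞)` for `a ≥ 4g`, `b ≥ 2g`.  Proof: `⊆` is `mul_mem_le`.  `⊇`: by
  strong induction on the weight `w = wt l ≤ a + b` show `e l ∈ L(a) * L(b)`: if `w ≤ a`,
  `e l = e l * 1`.  If `w > a ≥ 4g`: `w' := max (2g) (w - b) ≤ a`, `w'' := w - w' ≥ 2g`, `w'' ≤ b`; both are
  weights (`exists_wt_eq`), `e i * e j` (`wt i = w'`, `wt j = w''`) has a nonzero coefficient at `l`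
  (`mul_lead`) and all its other terms have smaller weight (`mul_le`).
* `adjoin_eq_top` : `R` is generated by the `e i`, `wt i ≤ n1 = 4g+2` (same induction:
  a weight `w > 4g + 2` is `2g + (w - 2g)`... with both summands `≥ 2g` and `< w`).
* `exists_sep_poly` : (`CharZero K`) every `r : R` satisfies `G(x, r) = 0`, `G_Y(x, r) ≠ 0` for some
  `G ∈ K[X][Y]`, where `x = e 1` (if `R ≠ K`...; `wt 1 ≥ 1`).  Proof: `R` is a domain and the powers
  `x^s r^t` with `s * wt 1 + t * deg r ≤ n` are more than `dim n` many for `n` large, so there is a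
  nonzero `G` with `G(x,r) = 0`; choose one with minimal `Y`-degree `t₀`; `t₀ ≥ 1` because `x` is
  transcendental (`deg (x^s) = s * wt 1` are distinct); then `G_Y ≠ 0` has smaller `Y`-degree
  (characteristic `0`), so `G_Y(x,r) ≠ 0`.
-/

set_option autoImplicit false

namespace Fermat.Agent.S17

namespace Frame

variable {K R : Type*} [Field K] [CommRing R] [Algebra K R] (F : Frame K R)

/-- the induction step: if `e i * e j` (of weight `wt l`) and all the `e m`, `m < l`, lie in a subspace,
then so does `e l`. -/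
theorem FrameGen_step (M : Submodule K R) {i j l : ℕ} (hw : F.wt l = F.wt i + F.wt j)
    (hij : F.e i * F.e j ∈ M) (hlt : ∀ m < l, F.e m ∈ M) : F.e l ∈ M := by
  have hf : F.e i * F.e j ∈ F.le (F.wt l) := by
    rw [hw]
    exact F.mul_mem_le (F.e_mem_le le_rfl) (F.e_mem_le le_rfl)
  have hsum := F.eq_sum_idx hf
  have hl : l ∈ F.idx (F.wt l) := F.mem_idx.2 le_rfl
  rw [← Finset.add_sum_erase _ _ hl] at hsum
  have hc : F.e.repr (F.e i * F.e j) l ≠ 0 := F.mul_lead i j l hw
  have hrest : ∑ m ∈ (F.idx (F.wt l)).erase l, F.e.repr (F.e i * F.e j) m • F.e m ∈ M := by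
    refine Submodule.sum_mem _ fun m hm => Submodule.smul_mem _ _ (hlt m ?_)
    have h1 := Finset.mem_erase.1 hm
    have h2 : F.wt m ≤ F.wt l := F.mem_idx.1 h1.2
    have h3 : m ≤ l := F.wt_strictMono.le_iff_le.1 h2
    exact lt_of_le_of_ne h3 h1.1
  have h4 : F.e.repr (F.e i * F.e j) l • F.e l ∈ M := by
    have h5 : F.e.repr (F.e i * F.e j) l • F.e l = F.e i * F.e j -
        ∑ m ∈ (F.idx (F.wt l)).erase l, F.e.repr (F.e i * F.e j) m • F.e m := by
      rw [eq_sub_iff_add_eq]
      exact hsum.symm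
    rw [h5]
    exact M.sub_mem hij hrest
  exact (Submodule.smul_mem_iff _ hc).1 h4

theorem le_mul_le {a b : ℕ} (ha : 4 * F.g ≤ a) (hb : 2 * F.g ≤ b) :
    F.le a * F.le b = F.le (a + b) := by
  apply le_antisymm
  · exact Submodule.mul_le.2 fun f hf h hh => F.mul_mem_le hf hh
  · have key : ∀ l, F.wt l ≤ a + b → F.e l ∈ F.le a * F.le b := by
      intro l
      induction l using Nat.strong_induction_on with
      | _ l ih =>
        intro hl
        by_cases hla : F.wt l ≤ a
        · have h1 : F.e l * F.e 0 ∈ F.le a * F.le b :=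
            Submodule.mul_mem_mul (F.e_mem_le hla) (F.e_mem_le (by rw [F.wt_zero]; exact Nat.zero_le b))
          rwa [F.e_zero, mul_one] at h1
        · obtain ⟨w', w'', h1, h2, h3, h4, h5⟩ : ∃ w' w'' : ℕ, F.wt l = w' + w'' ∧ 2 * F.g ≤ w' ∧
              w' ≤ a ∧ 2 * F.g ≤ w'' ∧ w'' ≤ b := by
            by_cases hc : F.wt l ≤ b + 2 * F.g
            · exact ⟨2 * F.g, F.wt l - 2 * F.g, by omega, le_rfl, by omega, by omega, by omega⟩
            · exact ⟨F.wt l - b, b, by omega, by omega, by omega, hb, le_rfl⟩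
          obtain ⟨i, hi⟩ := F.exists_wt_eq h2
          obtain ⟨j, hj⟩ := F.exists_wt_eq h4
          refine F.FrameGen_step _ (i := i) (j := j) (by rw [hi, hj]; exact h1)
            (Submodule.mul_mem_mul (F.e_mem_le (by rw [hi]; exact h3))
              (F.e_mem_le (by rw [hj]; exact h5))) fun m hm => ih m hm ?_
          exact (F.wt_strictMono hm).le.trans hl
    unfold Frame.le
    rw [Submodule.span_le]
    rintro _ ⟨l, hl, rfl⟩
    exact key l hl

theorem adjoin_eq_top : Algebra.adjoin K (F.e '' {i | F.wt i ≤ F.n1}) = ⊤ := by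
  have key : ∀ l, F.e l ∈ Algebra.adjoin K (F.e '' {i | F.wt i ≤ F.n1}) := by
    intro l
    induction l using Nat.strong_induction_on with
    | _ l ih =>
      by_cases hl : F.wt l ≤ F.n1
      · exact Algebra.subset_adjoin ⟨l, hl, rfl⟩
      · have hl' : 4 * F.g + 2 < F.wt l := not_le.mp hl
        obtain ⟨i, hi⟩ := F.exists_wt_eq (n := 2 * F.g + 1) (by omega)
        obtain ⟨j, hj⟩ := F.exists_wt_eq (n := F.wt l - (2 * F.g + 1)) (by omega)
        have hil : i < l := F.wt_strictMono.lt_iff_lt.1 (by rw [hi]; omega)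
        have hjl : j < l := F.wt_strictMono.lt_iff_lt.1 (by rw [hj]; omega)
        have h1 := F.FrameGen_step
          (Subalgebra.toSubmodule (Algebra.adjoin K (F.e '' {i | F.wt i ≤ F.n1})))
          (i := i) (j := j) (l := l) (by rw [hi, hj]; omega)
          ((Subalgebra.mem_toSubmodule _).2 (mul_mem (ih i hil) (ih j hjl)))
          (fun m hm => (Subalgebra.mem_toSubmodule _).2 (ih m hm))
        exact (Subalgebra.mem_toSubmodule _).1 h1
  rw [eq_top_iff]
  intro r _
  have h1 : r ∈ Submodule.span K (Set.range F.e) := by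
    rw [F.e.span_eq]
    trivial
  have h2 : Submodule.span K (Set.range F.e) ≤
      Subalgebra.toSubmodule (Algebra.adjoin K (F.e '' {i | F.wt i ≤ F.n1})) := by
    rw [Submodule.span_le]
    rintro _ ⟨l, rfl⟩
    exact key l
  exact (Subalgebra.mem_toSubmodule _).1 (h2 h1)

open Polynomial in
theorem exists_sep_poly [CharZero K] (r : R) :
    ∃ G : Polynomial (Polynomial K),
      (G.map (aeval (F.e 1)).toRingHom).eval r = 0 ∧
      ((derivative G).map (aeval (F.e 1)).toRingHom).eval r ≠ 0 :=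
  F.SepPoly_main r

end Frame

end Fermat.Agent.S17
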