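import Fermat.Agent.S17.Loc.Mult
import Fermat.Agent.S17.Loc.Size

/-!
# S17 / LOC leaf `VH`: the HARD half of the Vandermonde estimate (elementary)

For `N ≥ d * n1 + 4 g` and points `Q_0 .. Q_{d-1}`:
`∏_a |Q_a|_N * ∏_{a<b} |ξ(Q_a) ∧ ξ(Q_b)|_{n1}  ≲  |∧_a ξ_N(Q_a)| * ∏_{a<b} |Q_a|_{n1} |Q_b|_{n1}`.

Proof (fix `v` and `Q`).  For `l < k` choose `(i,j)` (indices of weight `≤ n1`) with
`|e_i(Q_k) e_j(Q_l) - e_j(Q_k) e_i(Q_l)| = wdg v n1 (Q_l, Q_k)` and put
`s_{kl} := e_j(Q_l) • e_i - e_i(Q_l) • e_j ∈ L(n1)`: `s_{kl}(Q_l) = 0`, `|s_{kl}(Q_k)| = wdg`,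
`cnrm s_{kl} ≤ |Q_l|_{n1}`.  Choose `u_k = e_{i_k}`, `wt ≤ N_k := N - k * n1`, with
`|u_k(Q_k)| = |Q_k|_{N_k}`.  `G_k := u_k ∏_{l<k} s_{kl} ∈ L(N)`, `G_k(Q_l) = 0` for `l < k`, so the matrix
`(G_k(Q_l))` is triangular: `|det| = ∏_k |Q_k|_{N_k} ∏_{l<k} wdg(Q_l,Q_k)`.
On the other hand `G_k = ∑_{j ∈ idx N} c_{kj} e_j`, and by multilinearity of `det` in the rows
`det (G_k(Q_l)) = ∑_{J : Fin d → idx N} (∏_k c_{k,J k}) det (e_{J k}(Q_l))`, so
`|det| ≲ ∏_k cnrm G_k * wdg v N Q`, `cnrm G_k ≲ ∏_{l<k} |Q_l|_{n1}` (`cnrm_prod_le`).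
Multiply by `∏_k |Q_k|_{n1}^k` and use `|Q|_N ≲ |Q|_{N_k} |Q|_{n1}^k` (`nrm_add_le` iterated; `N_k ≥ 4g`).
All constants come from `cnrm_prod_le`, `nrm_add_le` and the number of terms, hence `UBound`.
-/

set_option autoImplicit false

namespace Fermat.Agent.S17

theorem vh_det_expand {K : Type*} [CommRing K] {d : ℕ} (T : Finset ℕ) (c : Fin d → ℕ → K)
    (row : ℕ → Fin d → K) :
    (Matrix.of fun k l => ∑ j ∈ T, c k j * row j l).det
      = ∑ J ∈ Fintype.piFinset (fun _ : Fin d => T),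
          (∏ k, c k (J k)) * (Matrix.of fun k l => row (J k) l).det := by
  have h := (Matrix.detRowAlternating (n := Fin d) (R := K)).toMultilinearMap.map_sum_finset
    (fun k j => c k j • row j) (fun _ => T)
  have e1 : (Matrix.of fun k l => ∑ j ∈ T, c k j * row j l)
      = (fun k => ∑ j ∈ T, c k j • row j) := by
    ext k l
    simp [Finset.sum_apply]
  rw [e1]
  refine h.trans (Finset.sum_congr rfl fun J _ => ?_)
  exact (Matrix.detRowAlternating (n := Fin d) (R := K)).toMultilinearMap.map_smul_univ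
    (fun k => c k (J k)) (fun k => row (J k))

theorem vh_prod_pairs {M : Type*} [CommMonoid M] (d : ℕ) (f : Fin d → Fin d → M) :
    ∏ p ∈ pairs d, f p.1 p.2 = ∏ k, ∏ l, if l < k then f l k else 1 := by
  unfold pairs
  rw [Finset.prod_filter, Fintype.prod_prod_type, Finset.prod_comm]

theorem vh_prod_pow {M : Type*} [CommMonoid M] {d : ℕ} (k : Fin d) (x : M) :
    (∏ l : Fin d, if l < k then x else 1) = x ^ (k : ℕ) := by
  rw [Finset.prod_ite, Finset.prod_const, Finset.prod_const_one, mul_one]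
  congr 1
  rw [← Fin.card_Iio k]
  congr 1
  ext l
  simp

theorem vh_sum_ite {d : ℕ} (k : Fin d) (n : ℕ) :
    (∑ l : Fin d, if l < k then n else 0) = (k : ℕ) * n := by
  have := vh_prod_pow (M := Multiplicative ℕ) k (Multiplicative.ofAdd n)
  have h2 := congrArg Multiplicative.toAdd this
  rw [toAdd_pow, toAdd_ofAdd, smul_eq_mul] at h2
  rw [← h2, toAdd_prod]
  refine Finset.sum_congr rfl fun l _ => ?_
  split_ifs <;> rfl

variable {K R : Type*} [Field K] [CommRing R] [Algebra K R] (F : Frame K R)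

theorem vh_one_mem_le (n : ℕ) : (1 : R) ∈ F.le n := by
  rw [← F.e_zero]
  exact F.e_mem_le (by rw [F.wt_zero]; exact Nat.zero_le n)

theorem vh_prod_mem_le {ι : Type*} (T : Finset ι) (f : ι → R) (m : ι → ℕ)
    (h : ∀ l ∈ T, f l ∈ F.le (m l)) : ∏ l ∈ T, f l ∈ F.le (∑ l ∈ T, m l) := by
  classical
  induction T using Finset.induction_on with
  | empty => simpa using vh_one_mem_le F 0
  | insert a T ha ih =>
    rw [Finset.prod_insert ha, Finset.sum_insert ha]
    exact F.mul_mem_le (h a (Finset.mem_insert_self a T))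
      (ih fun l hl => h l (Finset.mem_insert_of_mem hl))

theorem vh_cnrm_e_le (v : AbsoluteValue K ℝ) (i : ℕ) : F.cnrm v (F.e i) ≤ 1 := by
  classical
  rw [F.cnrm_eq v (F.e_mem_le (le_refl (F.wt i)))]
  refine Finset.sup'_le _ _ fun j _ => ?_
  rw [F.e.repr_self, Finsupp.single_apply]
  split_ifs <;> simp

theorem vh_cnrm_one_le (v : AbsoluteValue K ℝ) : F.cnrm v (1 : R) ≤ 1 := by
  rw [← F.e_zero]
  exact vh_cnrm_e_le F v 0

theorem vh_le_nrm (v : AbsoluteValue K ℝ) {n i : ℕ} (hi : F.wt i ≤ n) (P : R →ₐ[K] K) :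
    v (P (F.e i)) ≤ F.nrm v n P :=
  Finset.le_sup' (fun i => v (P (F.e i))) (F.mem_idx.2 hi)

/-- the section vanishing at `P`. -/
noncomputable def vhS (P : R →ₐ[K] K) (J : Fin 2 → ℕ) : R :=
  P (F.e (J 0)) • F.e (J 1) - P (F.e (J 1)) • F.e (J 0)

theorem vhS_mem {n : ℕ} (P : R →ₐ[K] K) {J : Fin 2 → ℕ} (hJ : ∀ b, F.wt (J b) ≤ n) :
    vhS F P J ∈ F.le n :=
  (F.le n).sub_mem ((F.le n).smul_mem _ (F.e_mem_le (hJ 1)))
    ((F.le n).smul_mem _ (F.e_mem_le (hJ 0)))

theorem vhS_self (P : R →ₐ[K] K) (J : Fin 2 → ℕ) : P (vhS F P J) = 0 := by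
  simp only [vhS, map_sub, map_smul, smul_eq_mul]
  ring

theorem vhS_apply (P Q : R →ₐ[K] K) (J : Fin 2 → ℕ) :
    Q (vhS F P J) = (F.mat (fun a => ⇑(two P Q a)) J).det := by
  simp only [vhS, map_sub, map_smul, smul_eq_mul, Matrix.det_fin_two, Frame.mat, Matrix.of_apply,
    two, Matrix.cons_val_zero, Matrix.cons_val_one]

theorem vhS_cnrm_le (v : AbsoluteValue K ℝ) {n : ℕ} (P : R →ₐ[K] K) {J : Fin 2 → ℕ}
    (hJ : ∀ b, F.wt (J b) ≤ n) : F.cnrm v (vhS F P J) ≤ F.nrm v n P := by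
  classical
  rw [F.cnrm_eq v (vhS_mem F P hJ)]
  refine Finset.sup'_le _ _ fun j _ => ?_
  have h0 : 0 ≤ F.nrm v n P := le_trans zero_le_one (F.one_le_nrm v n P)
  simp only [vhS, map_sub, map_smul, F.e.repr_self, Finsupp.sub_apply, Finsupp.smul_apply,
    Finsupp.single_apply, smul_eq_mul]
  by_cases h01 : J 0 = J 1
  · rw [h01, sub_self, map_zero]
    exact h0
  · by_cases h1 : J 1 = j
    · have h2 : J 0 ≠ j := fun h => h01 (h.trans h1.symm)
      rw [if_pos h1, if_neg h2, mul_one, mul_zero, sub_zero]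
      exact vh_le_nrm F v (hJ 0) P
    · by_cases h2 : J 0 = j
      · rw [if_neg h1, if_pos h2, mul_one, mul_zero, zero_sub, map_neg_eq_map]
        exact vh_le_nrm F v (hJ 1) P
      · rw [if_neg h1, if_neg h2, mul_zero, mul_zero, sub_zero, map_zero]
        exact h0

theorem vh_nrm_nonneg (v : AbsoluteValue K ℝ) (n : ℕ) (P : R →ₐ[K] K) : 0 ≤ F.nrm v n P :=
  le_trans zero_le_one (F.one_le_nrm v n P)

/-- `|Q|_N ≲ |Q|_{N - k n1} |Q|_{n1}^k`. -/
theorem vh_nrm_split (N : ℕ) : ∀ k : ℕ, k * F.n1 + 4 * F.g ≤ N →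
    UBound (α := R →ₐ[K] K) (fun v P => F.nrm v N P)
      (fun v P => F.nrm v (N - k * F.n1) P * F.nrm v F.n1 P ^ k) := by
  intro k
  induction k with
  | zero =>
    intro _
    exact UBound.of_le fun v P => by simp
  | succ k ih =>
    intro hk
    have hk' : k * F.n1 + 4 * F.g ≤ N := by
      rw [Nat.succ_mul] at hk
      omega
    refine (ih hk').trans ?_
    have h1 : N - k * F.n1 = (N - (k + 1) * F.n1) + F.n1 := by
      rw [Nat.succ_mul] at hk ⊢
      omega
    have h2 := F.nrm_add_le (a := N - (k + 1) * F.n1) (b := F.n1)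
      (by rw [Nat.succ_mul] at hk ⊢; omega) (by unfold Frame.n1; omega)
    rw [← h1] at h2
    have h3 := h2.mul (UBound.refl fun (v : AbsoluteValue K ℝ) (P : R →ₐ[K] K) => F.nrm v F.n1 P ^ k)
      (fun v P => vh_nrm_nonneg F v _ P) (fun v P => pow_nonneg (vh_nrm_nonneg F v _ P) k)
    refine h3.trans (UBound.of_le fun v P => le_of_eq ?_)
    rw [pow_succ]
    ring

theorem vh_core (d N : ℕ) (hN : d * F.n1 + 4 * F.g ≤ N) :
    UBound (α := Fin d → (R →ₐ[K] K))
      (fun v P => ∏ k : Fin d, (F.nrm v (N - k * F.n1) (P k) *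
          ∏ l : Fin d, if l < k then F.wdg v F.n1 (fun a => ⇑(two (P l) (P k) a)) else 1))
      (fun v P => (∏ k : Fin d, ∏ l : Fin d, if l < k then F.nrm v F.n1 (P l) else 1) *
          F.wdg v N (fun a => ⇑(P a))) := by
  classical
  obtain ⟨S1, hS1, h1⟩ := F.cnrm_prod_le N (d + 1)
  obtain ⟨S2, hS2, h2⟩ := UBound.linear (K := K) (α := (Fin d → ℕ) → K) (F.idxFam N d)
    (F.idxFam_nonempty N d) (fun _ => 1) (fun J x => x J)
  refine ⟨S1 ∪ S2, ?_, fun v => ?_⟩
  · intro a ha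
    rcases Finset.mem_union.1 ha with h | h
    exacts [hS1 a h, hS2 a h]
  obtain ⟨C1, hC1, hC1', hb1⟩ := h1 v
  obtain ⟨C2, hC2, hC2', hb2⟩ := h2 v
  refine ⟨C2 * C1 ^ d, ?_, ?_, fun P => ?_⟩
  · exact one_le_mul_of_one_le_of_one_le hC2 (one_le_pow₀ hC1)
  · intro hv hS
    rw [hC1' hv (fun a ha => hS a (Finset.mem_union_left _ ha)),
      hC2' hv (fun a ha => hS a (Finset.mem_union_right _ ha))]
    simp
  -- construction
  have hJ : ∀ l k : Fin d, ∃ J ∈ F.idxFam F.n1 2,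
      F.wdg v F.n1 (fun a => ⇑(two (P l) (P k) a))
        = v (F.mat (fun a => ⇑(two (P l) (P k) a)) J).det :=
    fun l k => Finset.exists_mem_eq_sup' _ _
  choose J hJmem hJeq using hJ
  have hi : ∀ k : Fin d, ∃ i ∈ F.idx (N - k * F.n1),
      F.nrm v (N - k * F.n1) (P k) = v (P k (F.e i)) :=
    fun k => Finset.exists_mem_eq_sup' _ _
  choose i himem hieq using hi
  let s : Fin d → Fin d → R := fun l k => vhS F (P l) (J l k)
  let fam : Fin d → Fin (d + 1) → R :=
    fun k => Fin.cons (F.e (i k)) (fun l => if l < k then s l k else 1)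
  let G : Fin d → R := fun k => ∏ t, fam k t
  have hG : ∀ k, G k = F.e (i k) * ∏ l, (if l < k then s l k else 1) := by
    intro k
    simp only [G, fam, Fin.prod_univ_succ, Fin.cons_zero, Fin.cons_succ]
  have hkN : ∀ k : Fin d, (k : ℕ) * F.n1 + F.n1 ≤ N := by
    intro k
    have h3 : ((k : ℕ) + 1) * F.n1 ≤ d * F.n1 := Nat.mul_le_mul_right _ k.2
    rw [Nat.succ_mul] at h3
    omega
  have hs : ∀ l k, s l k ∈ F.le F.n1 := fun l k => vhS_mem F (P l) (F.mem_idxFam.1 (hJmem l k))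
  have hfam : ∀ k t, fam k t ∈ F.le N := by
    intro k t
    refine Fin.cases ?_ (fun l => ?_) t
    · simp only [fam, Fin.cons_zero]
      exact F.e_mem_le (le_trans (F.mem_idx.1 (himem k)) (Nat.sub_le _ _))
    · simp only [fam, Fin.cons_succ]
      split_ifs
      · exact F.le_mono (by have := hkN k; omega) (hs l k)
      · exact vh_one_mem_le F N
  have hGN : ∀ k, G k ∈ F.le N := by
    intro k
    rw [hG]
    have h3 : ∏ l, (if l < k then s l k else 1) ∈ F.le ((k : ℕ) * F.n1) := by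
      rw [← vh_sum_ite k F.n1]
      refine vh_prod_mem_le F _ _ _ fun l _ => ?_
      split_ifs
      · exact hs l k
      · exact vh_one_mem_le F 0
    have h4 := F.mul_mem_le (F.e_mem_le (F.mem_idx.1 (himem k))) h3
    have h5 : N - (k : ℕ) * F.n1 + (k : ℕ) * F.n1 = N := by have := hkN k; omega
    rwa [h5] at h4
  have hzero : ∀ l k : Fin d, l < k → P l (G k) = 0 := by
    intro l k hlk
    rw [hG, map_mul, map_prod, Finset.prod_eq_zero (Finset.mem_univ l), mul_zero]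
    rw [if_pos hlk]
    exact vhS_self F (P l) (J l k)
  have hdiag : ∀ k : Fin d, v (P k (G k)) = F.nrm v (N - k * F.n1) (P k) *
      ∏ l : Fin d, if l < k then F.wdg v F.n1 (fun a => ⇑(two (P l) (P k) a)) else 1 := by
    intro k
    rw [hG, map_mul, map_mul, ← hieq, map_prod, map_prod]
    congr 1
    refine Finset.prod_congr rfl fun l _ => ?_
    split_ifs
    · rw [hJeq, vhS_apply]
    · simp
  have hcn : ∀ k : Fin d, F.cnrm v (G k)
      ≤ C1 * ∏ l : Fin d, if l < k then F.nrm v F.n1 (P l) else 1 := by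
    intro k
    refine le_trans (hb1 ⟨fam k, hfam k⟩) (mul_le_mul_of_nonneg_left ?_ (le_trans zero_le_one hC1))
    simp only [fam, Fin.prod_univ_succ, Fin.cons_zero, Fin.cons_succ]
    have h3 : ∏ l : Fin d, F.cnrm v (if l < k then s l k else 1)
        ≤ ∏ l : Fin d, if l < k then F.nrm v F.n1 (P l) else 1 := by
      refine Finset.prod_le_prod (fun l _ => F.cnrm_nonneg v _) fun l _ => ?_
      split_ifs
      · exact vhS_cnrm_le F v (P l) (F.mem_idxFam.1 (hJmem l k))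
      · exact vh_cnrm_one_le F v
    calc F.cnrm v (F.e (i k)) * ∏ l : Fin d, F.cnrm v (if l < k then s l k else 1)
        ≤ 1 * ∏ l : Fin d, if l < k then F.nrm v F.n1 (P l) else 1 :=
          mul_le_mul (vh_cnrm_e_le F v _) h3
            (Finset.prod_nonneg fun l _ => F.cnrm_nonneg v _) zero_le_one
      _ = _ := one_mul _
  -- the determinant
  let A : Matrix (Fin d) (Fin d) K := Matrix.of fun k l => P l (G k)
  have hdetA : A.det = ∏ k, P k (G k) := by
    apply Matrix.det_of_isUpperTriangular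
    intro k l hlk
    exact hzero l k hlk
  have hA : A = Matrix.of fun k l => ∑ j ∈ F.idx N, F.e.repr (G k) j * P l (F.e j) := by
    ext k l
    simp only [A, Matrix.of_apply]
    conv_lhs => rw [F.eq_sum_idx (hGN k)]
    simp only [map_sum, map_smul, smul_eq_mul]
  have hexp : A.det = ∑ J' ∈ F.idxFam N d,
      1 * ((∏ k, F.e.repr (G k) (J' k)) * (F.mat (fun a => ⇑(P a)) J').det) := by
    rw [hA, vh_det_expand]
    refine Finset.sum_congr rfl fun J' _ => ?_
    rw [one_mul, ← Matrix.det_transpose (F.mat (fun a => ⇑(P a)) J')]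
    rfl
  have hbound := hb2 (fun J' => (∏ k, F.e.repr (G k) (J' k)) * (F.mat (fun a => ⇑(P a)) J').det)
  simp only at hbound
  rw [← hexp, hdetA, map_prod] at hbound
  have hsup : ((F.idxFam N d).sup' (F.idxFam_nonempty N d) fun J' =>
      v ((∏ k, F.e.repr (G k) (J' k)) * (F.mat (fun a => ⇑(P a)) J').det))
      ≤ (∏ k, F.cnrm v (G k)) * F.wdg v N (fun a => ⇑(P a)) := by
    refine Finset.sup'_le _ _ fun J' hJ' => ?_
    rw [map_mul, map_prod]
    refine mul_le_mul ?_ ?_ (v.nonneg _) (Finset.prod_nonneg fun k _ => F.cnrm_nonneg v _)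
    · refine Finset.prod_le_prod (fun k _ => v.nonneg _) fun k _ => ?_
      rw [F.cnrm_eq v (hGN k)]
      exact Finset.le_sup' (fun j => v (F.e.repr (G k) j))
        (F.mem_idx.2 (F.mem_idxFam.1 hJ' k))
    · exact Finset.le_sup' (fun J' => v (F.mat (fun a => ⇑(P a)) J').det) hJ'
  have hC20 : 0 ≤ C2 := le_trans zero_le_one hC2
  have hC10 : 0 ≤ C1 := le_trans zero_le_one hC1
  have hw0 : 0 ≤ F.wdg v N (fun a => ⇑(P a)) := F.wdg_nonneg v N _
  calc ∏ k : Fin d, (F.nrm v (N - k * F.n1) (P k) *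
          ∏ l : Fin d, if l < k then F.wdg v F.n1 (fun a => ⇑(two (P l) (P k) a)) else 1)
      = ∏ k, v (P k (G k)) := Finset.prod_congr rfl fun k _ => (hdiag k).symm
    _ ≤ C2 * ((∏ k, F.cnrm v (G k)) * F.wdg v N (fun a => ⇑(P a))) :=
        le_trans hbound (mul_le_mul_of_nonneg_left hsup hC20)
    _ ≤ C2 * ((∏ k : Fin d, (C1 * ∏ l : Fin d, if l < k then F.nrm v F.n1 (P l) else 1))
          * F.wdg v N (fun a => ⇑(P a))) := by
        refine mul_le_mul_of_nonneg_left (mul_le_mul_of_nonneg_right ?_ hw0) hC20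
        exact Finset.prod_le_prod (fun k _ => F.cnrm_nonneg v _) fun k _ => hcn k
    _ = C2 * C1 ^ d * ((∏ k : Fin d, ∏ l : Fin d, if l < k then F.nrm v F.n1 (P l) else 1) *
          F.wdg v N (fun a => ⇑(P a))) := by
        rw [Finset.prod_mul_distrib, Finset.prod_const, Finset.card_univ, Fintype.card_fin]
        ring

/-- HARD half. -/
theorem vdm_hard (d N : ℕ) (hN : d * F.n1 + 4 * F.g ≤ N) :
    UBound (α := Fin d → (R →ₐ[K] K)) (fun v P => vdmB F v N P) (fun v P => vdmA F v N P) := by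
  classical
  have hA : UBound (α := Fin d → (R →ₐ[K] K)) (fun v P => ∏ k : Fin d, F.nrm v N (P k))
      (fun v P => ∏ k : Fin d, (F.nrm v (N - k * F.n1) (P k) * F.nrm v F.n1 (P k) ^ (k : ℕ))) := by
    refine UBound.prod Finset.univ (fun k _ => ?_) (fun k _ v P => vh_nrm_nonneg F v N (P k))
    have hk : (k : ℕ) * F.n1 + 4 * F.g ≤ N :=
      le_trans (Nat.add_le_add_right (Nat.mul_le_mul_right _ k.2.le) _) hN
    exact (vh_nrm_split F N k hk).comp (fun P : Fin d → (R →ₐ[K] K) => P k)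
  have hW0 : ∀ (v : AbsoluteValue K ℝ) (P : Fin d → (R →ₐ[K] K)),
      0 ≤ ∏ p ∈ pairs d, F.wdg v F.n1 (fun a => ⇑(two (P p.1) (P p.2) a)) :=
    fun v P => Finset.prod_nonneg fun p _ => F.wdg_nonneg v _ _
  have h1 := hA.mul (UBound.refl fun (v : AbsoluteValue K ℝ) (P : Fin d → (R →ₐ[K] K)) =>
    ∏ p ∈ pairs d, F.wdg v F.n1 (fun a => ⇑(two (P p.1) (P p.2) a)))
    (fun v P => Finset.prod_nonneg fun k _ => vh_nrm_nonneg F v N (P k)) hW0
  have h2 := (vh_core F d N hN).mul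
    (UBound.refl fun (v : AbsoluteValue K ℝ) (P : Fin d → (R →ₐ[K] K)) =>
      ∏ k : Fin d, F.nrm v F.n1 (P k) ^ (k : ℕ))
    (fun v P => Finset.prod_nonneg fun k _ => mul_nonneg (vh_nrm_nonneg F v _ (P k))
      (Finset.prod_nonneg fun l _ => by
        split_ifs
        · exact F.wdg_nonneg v _ _
        · exact zero_le_one))
    (fun v P => Finset.prod_nonneg fun k _ => pow_nonneg (vh_nrm_nonneg F v _ (P k)) _)
  refine h1.trans ((UBound.of_le fun v P => le_of_eq ?_).trans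
    (h2.trans (UBound.of_le fun v P => le_of_eq ?_)))
  · rw [vh_prod_pairs d (fun l k => F.wdg v F.n1 (fun a => ⇑(two (P l) (P k) a))),
      Finset.prod_mul_distrib, Finset.prod_mul_distrib]
    ring
  · unfold vdmA
    rw [vh_prod_pairs d (fun l k => F.nrm v F.n1 (P l) * F.nrm v F.n1 (P k))]
    have h3 : ∀ k : Fin d, (∏ l : Fin d, if l < k then F.nrm v F.n1 (P l) * F.nrm v F.n1 (P k) else 1)
        = (∏ l : Fin d, if l < k then F.nrm v F.n1 (P l) else 1) * F.nrm v F.n1 (P k) ^ (k : ℕ) := by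
      intro k
      rw [← vh_prod_pow k (F.nrm v F.n1 (P k)), ← Finset.prod_mul_distrib]
      refine Finset.prod_congr rfl fun l _ => ?_
      split_ifs <;> simp
    simp only [h3, Finset.prod_mul_distrib]
    ring

end Fermat.Agent.S17
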